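import Mathlib
import Fermat.Prelude.Thm_CongruenceSubgroup_one_mem_strictPeriods_Gamma0
import Fermat.Prelude.Thm_UpperHalfPlane_qExpansion_prod

set_option autoImplicit false

open UpperHalfPlane ModularForm CongruenceSubgroup
open scoped MatrixGroups Manifold

namespace Fermat.Agent.S23

/-- holomorphic, 1-periodic, bounded at `i∞`: the class of functions on which `qExpansion 1`
is an injective ring homomorphism. -/
structure Nice (F : ℍ → ℂ) : Prop where
  per : Function.Periodic (F ∘ ofComplex) 1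
  holo : MDiff F
  bdd : IsBoundedAtImInfty F

/-- `F` is (the function underlying) a modular form of weight `w` for `Γ`. -/
def IsMF (Γ : Subgroup (GL (Fin 2) ℝ)) (w : ℤ) (F : ℍ → ℂ) : Prop :=
  ∃ a : ModularForm Γ w, ⇑a = F

/-- the `q`-expansion has integer coefficients. -/
def IntQ (F : ℍ → ℂ) : Prop := ∀ n : ℕ, ∃ m : ℤ, (qExpansion 1 F).coeff n = (m : ℂ)

namespace Nice

variable {F G : ℍ → ℂ}

lemma analyticAt (hF : Nice F) : AnalyticAt ℂ (cuspFunction 1 F) 0 :=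
  analyticAt_cuspFunction_zero one_pos (by simpa using hF.per) hF.holo hF.bdd

lemma zero : Nice (0 : ℍ → ℂ) :=
  ⟨fun _ => rfl, mdifferentiable_const, Filter.const_boundedAtFilter _ 0⟩

lemma const (c : ℂ) : Nice (fun _ => c : ℍ → ℂ) :=
  ⟨fun _ => rfl, mdifferentiable_const, Filter.const_boundedAtFilter _ c⟩

lemma one : Nice (1 : ℍ → ℂ) := const 1

lemma add (hF : Nice F) (hG : Nice G) : Nice (F + G) :=
  ⟨fun z => by
      have h1 := hF.per z
      have h2 := hG.per z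
      simp only [Function.comp_apply, Pi.add_apply] at h1 h2 ⊢
      rw [h1, h2], hF.holo.add hG.holo, hF.bdd.add hG.bdd⟩

lemma mul (hF : Nice F) (hG : Nice G) : Nice (F * G) :=
  ⟨fun z => by
      have h1 := hF.per z
      have h2 := hG.per z
      simp only [Function.comp_apply, Pi.mul_apply] at h1 h2 ⊢
      rw [h1, h2], hF.holo.mul hG.holo, hF.bdd.mul hG.bdd⟩

lemma neg (hF : Nice F) : Nice (-F) :=
  ⟨fun z => by
      have h1 := hF.per z
      simp only [Function.comp_apply, Pi.neg_apply] at h1 ⊢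
      rw [h1], hF.holo.neg, hF.bdd.neg⟩

lemma sub (hF : Nice F) (hG : Nice G) : Nice (F - G) := by
  rw [sub_eq_add_neg]; exact hF.add hG.neg

lemma smul (c : ℂ) (hF : Nice F) : Nice (c • F) := by
  have : c • F = (fun _ => c : ℍ → ℂ) * F := by ext z; simp
  rw [this]; exact (const c).mul hF

lemma pow (hF : Nice F) (n : ℕ) : Nice (F ^ n) := by
  induction n with
  | zero => simpa using one
  | succ n ih => rw [pow_succ]; exact ih.mul hF

lemma sum {ι : Type*} (s : Finset ι) {F : ι → ℍ → ℂ} (h : ∀ i ∈ s, Nice (F i)) :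
    Nice (∑ i ∈ s, F i) := by
  classical
  induction s using Finset.induction_on with
  | empty => simpa using zero
  | insert a s ha ih =>
    rw [Finset.sum_insert ha]
    exact (h a (Finset.mem_insert_self _ _)).add
      (ih fun i hi => h i (Finset.mem_insert_of_mem hi))

lemma prod {ι : Type*} (s : Finset ι) {F : ι → ℍ → ℂ} (h : ∀ i ∈ s, Nice (F i)) :
    Nice (∏ i ∈ s, F i) := by
  classical
  induction s using Finset.induction_on with
  | empty => simpa using one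
  | insert a s ha ih =>
    rw [Finset.prod_insert ha]
    exact (h a (Finset.mem_insert_self _ _)).mul
      (ih fun i hi => h i (Finset.mem_insert_of_mem hi))

lemma qx_add (hF : Nice F) (hG : Nice G) :
    qExpansion 1 (F + G) = qExpansion 1 F + qExpansion 1 G :=
  qExpansion_add hF.analyticAt hG.analyticAt

lemma qx_mul (hF : Nice F) (hG : Nice G) :
    qExpansion 1 (F * G) = qExpansion 1 F * qExpansion 1 G :=
  qExpansion_mul hF.analyticAt hG.analyticAt

lemma qx_neg (hF : Nice F) : qExpansion 1 (-F) = -qExpansion 1 F :=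
  qExpansion_neg hF.analyticAt

lemma qx_sub (hF : Nice F) (hG : Nice G) :
    qExpansion 1 (F - G) = qExpansion 1 F - qExpansion 1 G :=
  qExpansion_sub hF.analyticAt hG.analyticAt

lemma qx_smul (c : ℂ) (hF : Nice F) : qExpansion 1 (c • F) = c • qExpansion 1 F :=
  qExpansion_smul hF.analyticAt c

lemma qx_pow (hF : Nice F) (n : ℕ) : qExpansion 1 (F ^ n) = qExpansion 1 F ^ n := by
  induction n with
  | zero => simpa using qExpansion_one 1
  | succ n ih => rw [pow_succ, (hF.pow n).qx_mul hF, ih, pow_succ]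

lemma qx_sum {ι : Type*} (s : Finset ι) {F : ι → ℍ → ℂ} (h : ∀ i ∈ s, Nice (F i)) :
    qExpansion 1 (∑ i ∈ s, F i) = ∑ i ∈ s, qExpansion 1 (F i) := by
  classical
  induction s using Finset.induction_on with
  | empty => simpa using qExpansion_zero 1
  | insert a s ha ih =>
    rw [Finset.sum_insert ha, Finset.sum_insert ha,
      (h a (Finset.mem_insert_self _ _)).qx_add
        (sum s fun i hi => h i (Finset.mem_insert_of_mem hi)),
      ih fun i hi => h i (Finset.mem_insert_of_mem hi)]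

lemma qx_prod {ι : Type*} (s : Finset ι) {F : ι → ℍ → ℂ} (h : ∀ i ∈ s, Nice (F i)) :
    qExpansion 1 (∏ i ∈ s, F i) = ∏ i ∈ s, qExpansion 1 (F i) :=
  UpperHalfPlane.qExpansion_prod s fun i hi => (h i hi).analyticAt

lemma qx_eq_zero_iff (hF : Nice F) : qExpansion 1 F = 0 ↔ F = 0 :=
  qExpansion_eq_zero_iff one_pos (by simpa using hF.per) hF.holo hF.bdd

lemma eq_of_qx_eq (hF : Nice F) (hG : Nice G) (h : qExpansion 1 F = qExpansion 1 G) : F = G := by
  have := (hF.sub hG).qx_eq_zero_iff.mp (by rw [hF.qx_sub hG, h, sub_self])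
  exact sub_eq_zero.mp this

end Nice

/-- the image of `Γ₀(N)` in `GL₂(ℝ)`. -/
abbrev G0 (N : ℕ) : Subgroup (GL (Fin 2) ℝ) := (Gamma0 N : Subgroup (GL (Fin 2) ℝ))

lemma nice_of_modularForm {Γ : Subgroup (GL (Fin 2) ℝ)} [Γ.IsArithmetic]
    (hΓ : (1 : ℝ) ∈ Γ.strictPeriods) {w : ℤ} (a : ModularForm Γ w) : Nice a :=
  ⟨by simpa using SlashInvariantFormClass.periodic_comp_ofComplex a hΓ, a.holo',
    ModularFormClass.bdd_at_infty a⟩

lemma IsMF.nice_SL {w : ℤ} {F : ℍ → ℂ} (h : IsMF 𝒮ℒ w F) : Nice F := by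
  obtain ⟨a, rfl⟩ := h
  exact nice_of_modularForm one_mem_strictPeriods_SL a

lemma IsMF.nice_G0 {N : ℕ} [NeZero N] {w : ℤ} {F : ℍ → ℂ} (h : IsMF (G0 N) w F) : Nice F := by
  obtain ⟨a, rfl⟩ := h
  exact nice_of_modularForm (CongruenceSubgroup.one_mem_strictPeriods_Gamma0 N) a

lemma nice_cuspForm {N : ℕ} [NeZero N] {w : ℤ} (f : CuspForm (Gamma0 N) w) : Nice f :=
  ⟨by
    simpa using SlashInvariantFormClass.periodic_comp_ofComplex f
      (CongruenceSubgroup.one_mem_strictPeriods_Gamma0 N), f.holo',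
    ModularFormClass.bdd_at_infty f⟩

namespace IsMF

variable {Γ : Subgroup (GL (Fin 2) ℝ)} {w w₁ w₂ : ℤ} {F G : ℍ → ℂ}

lemma of (a : ModularForm Γ w) : IsMF Γ w a := ⟨a, rfl⟩

lemma zero : IsMF Γ w 0 := ⟨0, rfl⟩

lemma add (hF : IsMF Γ w F) (hG : IsMF Γ w G) : IsMF Γ w (F + G) := by
  obtain ⟨a, rfl⟩ := hF; obtain ⟨b, rfl⟩ := hG; exact ⟨a + b, rfl⟩

lemma neg (hF : IsMF Γ w F) : IsMF Γ w (-F) := by
  obtain ⟨a, rfl⟩ := hF; exact ⟨-a, rfl⟩

lemma sub (hF : IsMF Γ w F) (hG : IsMF Γ w G) : IsMF Γ w (F - G) := by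
  obtain ⟨a, rfl⟩ := hF; obtain ⟨b, rfl⟩ := hG; exact ⟨a - b, rfl⟩

lemma smul [Γ.HasDetOne] (c : ℂ) (hF : IsMF Γ w F) : IsMF Γ w (c • F) := by
  obtain ⟨a, rfl⟩ := hF; exact ⟨c • a, rfl⟩

lemma cast (h : w₁ = w₂) (hF : IsMF Γ w₁ F) : IsMF Γ w₂ F := h ▸ hF

lemma mul [Γ.HasDetPlusMinusOne] (hF : IsMF Γ w₁ F) (hG : IsMF Γ w₂ G) :
    IsMF Γ (w₁ + w₂) (F * G) := by
  obtain ⟨a, rfl⟩ := hF; obtain ⟨b, rfl⟩ := hG; exact ⟨a.mul b, rfl⟩

lemma one [Γ.HasDetPlusMinusOne] : IsMF Γ 0 1 := ⟨1, one_coe_eq_one⟩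

lemma const [Γ.HasDetOne] (c : ℂ) : IsMF Γ 0 (fun _ => c) := ⟨ModularForm.const c, rfl⟩

lemma pow [Γ.HasDetPlusMinusOne] (hF : IsMF Γ w F) (n : ℕ) : IsMF Γ (n * w) (F ^ n) := by
  induction n with
  | zero => simpa using one
  | succ n ih =>
    rw [pow_succ]
    exact (ih.mul hF).cast (by push_cast; ring)

lemma sum {ι : Type*} (s : Finset ι) {F : ι → ℍ → ℂ} (h : ∀ i ∈ s, IsMF Γ w (F i)) :
    IsMF Γ w (∑ i ∈ s, F i) := by
  classical
  induction s using Finset.induction_on with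
  | empty => simpa using zero
  | insert a s ha ih =>
    rw [Finset.sum_insert ha]
    exact (h a (Finset.mem_insert_self _ _)).add
      (ih fun i hi => h i (Finset.mem_insert_of_mem hi))

lemma prod [Γ.HasDetPlusMinusOne] {ι : Type*} (s : Finset ι) {F : ι → ℍ → ℂ} {wt : ι → ℤ}
    (h : ∀ i ∈ s, IsMF Γ (wt i) (F i)) : IsMF Γ (∑ i ∈ s, wt i) (∏ i ∈ s, F i) := by
  classical
  induction s using Finset.induction_on with
  | empty => simpa using one
  | insert a s ha ih =>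
    rw [Finset.prod_insert ha, Finset.sum_insert ha]
    exact (h a (Finset.mem_insert_self _ _)).mul
      (ih fun i hi => h i (Finset.mem_insert_of_mem hi))

/-- restriction to a smaller group. -/
lemma mono {Γ' : Subgroup (GL (Fin 2) ℝ)} (hΓ : Γ' ≤ Γ) (hF : IsMF Γ w F) : IsMF Γ' w F := by
  obtain ⟨a, rfl⟩ := hF
  exact ⟨{ toFun := a
           slash_action_eq' := fun γ hγ => a.slash_action_eq' γ (hΓ hγ)
           holo' := a.holo'
           bdd_at_cusps' := fun hc => a.bdd_at_cusps' (hc.mono hΓ) }, rfl⟩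

end IsMF

lemma G0_le_SL (N : ℕ) : G0 N ≤ 𝒮ℒ := by
  rintro _ ⟨γ, -, rfl⟩
  exact ⟨γ, rfl⟩

namespace IntQ

variable {F G : ℍ → ℂ}

lemma iff_mem_range : IntQ F ↔
    qExpansion 1 F ∈ Set.range (PowerSeries.map (Int.castRingHom ℂ)) := by
  constructor
  · intro h
    choose m hm using h
    exact ⟨PowerSeries.mk m, by ext n; simp [hm]⟩
  · rintro ⟨p, hp⟩ n
    exact ⟨p.coeff n, by rw [← hp]; simp⟩

lemma zero : IntQ (0 : ℍ → ℂ) := fun n => ⟨0, by simp [qExpansion_zero]⟩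

lemma one : IntQ (1 : ℍ → ℂ) := by
  rw [iff_mem_range, qExpansion_one]; exact ⟨1, map_one _⟩

lemma add (hF : IntQ F) (hG : IntQ G) (nF : Nice F) (nG : Nice G) : IntQ (F + G) := by
  rw [iff_mem_range] at *
  obtain ⟨p, hp⟩ := hF; obtain ⟨q, hq⟩ := hG
  exact ⟨p + q, by rw [map_add, hp, hq, nF.qx_add nG]⟩

lemma mul (hF : IntQ F) (hG : IntQ G) (nF : Nice F) (nG : Nice G) : IntQ (F * G) := by
  rw [iff_mem_range] at *
  obtain ⟨p, hp⟩ := hF; obtain ⟨q, hq⟩ := hG
  exact ⟨p * q, by rw [map_mul, hp, hq, nF.qx_mul nG]⟩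

lemma neg (hF : IntQ F) (nF : Nice F) : IntQ (-F) := by
  rw [iff_mem_range] at *
  obtain ⟨p, hp⟩ := hF
  exact ⟨-p, by rw [map_neg, hp, nF.qx_neg]⟩

lemma sub (hF : IntQ F) (hG : IntQ G) (nF : Nice F) (nG : Nice G) : IntQ (F - G) := by
  rw [sub_eq_add_neg]; exact hF.add (hG.neg nG) nF nG.neg

lemma pow (hF : IntQ F) (nF : Nice F) (n : ℕ) : IntQ (F ^ n) := by
  rw [iff_mem_range] at *
  obtain ⟨p, hp⟩ := hF
  exact ⟨p ^ n, by rw [map_pow, hp, nF.qx_pow]⟩

end IntQ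

end Fermat.Agent.S23
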