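import Mathlib

set_option autoImplicit false

namespace Fermat.Agent.S23

open UpperHalfPlane ModularForm MatrixGroups EisensteinSeries
open scoped ModularForm Manifold

/-- Power series with rational coefficients, as a subring of `ℂ⟦X⟧`. -/
noncomputable def ratSeries : Subring (PowerSeries ℂ) := (PowerSeries.map (algebraMap ℚ ℂ)).range

theorem mem_ratSeries_iff {p : PowerSeries ℂ} :
    p ∈ ratSeries ↔ ∀ n, ∃ r : ℚ, p.coeff n = (r : ℂ) := by
  constructor
  · rintro ⟨q, rfl⟩ n
    exact ⟨q.coeff n, by simp⟩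
  · intro h
    choose r hr using h
    refine ⟨PowerSeries.mk r, ?_⟩
    ext n
    simp [hr]

theorem C_mem_ratSeries (r : ℚ) : PowerSeries.C (r : ℂ) ∈ ratSeries :=
  ⟨PowerSeries.C r, by simp⟩

theorem qExpansion_E_mem_ratSeries {k : ℕ} (hk : 3 ≤ k) (hk2 : Even k) :
    qExpansion 1 (E hk) ∈ ratSeries := by
  rw [mem_ratSeries_iff]
  intro n
  rw [E_qExpansion_coeff hk hk2]
  split_ifs
  · exact ⟨1, by simp⟩
  · exact ⟨-(2 * k / bernoulli k) * (ArithmeticFunction.sigma (k - 1) n : ℕ), by push_cast; ring⟩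

theorem qExpansion_discriminant_eq :
    PowerSeries.C (1728 : ℂ) * qExpansion 1 CuspForm.discriminant =
      qExpansion 1 E₄ ^ 3 - qExpansion 1 E₆ ^ 2 := by
  have h1 : ((1728 : ℂ) • CuspForm.discriminant : CuspForm 𝒮ℒ 12) =
      (⇑(ModularForm.mcast (by decide) (E₄.pow 3) - ModularForm.mcast (by decide) (E₆.pow 2) :
        ModularForm 𝒮ℒ 12) : ℍ → ℂ) := by
    ext z
    simp only [CuspForm.coe_smul, Pi.smul_apply, smul_eq_mul, coe_mcast, coe_pow, sub_apply,
      Pi.pow_apply]
    have := discriminant_eq_E₄_cube_sub_E₆_sq z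
    rw [CuspForm.coe_discriminant, this]
    ring
  have h2 := ModularForm.qExpansion_smul one_pos one_mem_strictPeriods_SL (1728 : ℂ)
    CuspForm.discriminant
  have h3 : qExpansion 1 (⇑(ModularForm.mcast (by decide) (E₄.pow 3) -
      ModularForm.mcast (by decide) (E₆.pow 2) : ModularForm 𝒮ℒ 12) : ℍ → ℂ) =
      qExpansion 1 E₄ ^ 3 - qExpansion 1 E₆ ^ 2 := by
    simp only [FunLike.coe_sub, coe_mcast,
      ModularForm.qExpansion_sub one_pos one_mem_strictPeriods_SL,
      ModularForm.qExpansion_pow one_pos one_mem_strictPeriods_SL]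
  rw [← h3, ← h1, ← PowerSeries.smul_eq_C_mul, ← h2]
  rfl

theorem qExpansion_discriminant_mem_ratSeries :
    qExpansion 1 CuspForm.discriminant ∈ ratSeries := by
  have h := qExpansion_discriminant_eq
  have h4 : qExpansion 1 E₄ ∈ ratSeries := qExpansion_E_mem_ratSeries _ (by decide)
  have h6 : qExpansion 1 E₆ ∈ ratSeries := qExpansion_E_mem_ratSeries _ (by decide)
  have h5 : qExpansion 1 CuspForm.discriminant =
      PowerSeries.C (((1 / 1728 : ℚ) : ℂ)) * (qExpansion 1 E₄ ^ 3 - qExpansion 1 E₆ ^ 2) := by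
    rw [← h, ← mul_assoc, ← map_mul]
    norm_num
  rw [h5]
  exact ratSeries.mul_mem (C_mem_ratSeries _)
    (ratSeries.sub_mem (ratSeries.pow_mem h4 3) (ratSeries.pow_mem h6 2))

end Fermat.Agent.S23
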