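import Mathlib
import Fermat.Prelude.Def_ModularForm_HeckeOperator
import Fermat.Prelude.Thm_CongruenceSubgroup_one_mem_strictPeriods_Gamma0
import Fermat.Agent.S23.RatSeries
import Fermat.Agent.S23.Basic

set_option autoImplicit false

namespace Fermat.Agent.S23

open UpperHalfPlane ModularForm MatrixGroups CongruenceSubgroup Matrix.SpecialLinearGroup
open scoped ModularForm Manifold Pointwise

theorem G0_le_conj (N : ℕ) [NeZero N] :
    G0 N ≤ ConjAct.toConjAct (heckeDiagMatrix N)⁻¹ • (mapGL ℝ : SL(2, ℤ) →* GL (Fin 2) ℝ).range := by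
  have hN : N ≠ 0 := NeZero.ne N
  have hNR : (N : ℝ) ≠ 0 := by exact_mod_cast hN
  rintro _ ⟨γ, hγ, rfl⟩
  rw [map_inv, Subgroup.mem_inv_pointwise_smul_iff, ConjAct.toConjAct_smul]
  have hγ' : (N : ℤ) ∣ γ 1 0 := by
    have := (Gamma0_mem).mp hγ
    exact (ZMod.intCast_zmod_eq_zero_iff_dvd _ _).mp this
  obtain ⟨c', hc'⟩ := hγ'
  have hdet : γ 0 0 * γ 1 1 - γ 0 1 * γ 1 0 = 1 := by
    have := γ.det_coe
    rw [Matrix.det_fin_two] at this
    exact this
  obtain ⟨δ, h00, h01, h10', h11⟩ : ∃ δ : SL(2, ℤ), δ 0 0 = γ 0 0 ∧ δ 0 1 = N * γ 0 1 ∧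
      δ 1 0 = c' ∧ δ 1 1 = γ 1 1 := by
    refine ⟨⟨!![γ 0 0, N * γ 0 1; c', γ 1 1], ?_⟩, rfl, rfl, rfl, rfl⟩
    rw [Matrix.det_fin_two_of]
    rw [hc'] at hdet
    linarith
  refine ⟨δ, ?_⟩
  rw [eq_mul_inv_iff_mul_eq]
  apply Matrix.GeneralLinearGroup.ext
  intro i j
  have h10 : ((γ 1 0 : ℤ) : ℝ) = N * c' := by rw [hc']; push_cast; ring
  fin_cases i <;> fin_cases j <;>
    simp [Matrix.mul_apply, Fin.sum_univ_two, val_heckeDiagMatrix hN, mapGL_coe_matrix, h10,
      h00, h01, h10', h11] <;>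
    ring

/-- The form `N¹¹ Δ(Nτ)` of level `Γ₀(N)`. -/
noncomputable def levelRaise (N : ℕ) [NeZero N] : ModularForm (G0 N) 12 where
  toFun := ⇑CuspForm.discriminant ∣[(12 : ℤ)] heckeDiagMatrix N
  slash_action_eq' γ hγ :=
    (ModularForm.translate CuspForm.discriminant (heckeDiagMatrix N)).slash_action_eq' γ
      (G0_le_conj N hγ)
  holo' := (ModularForm.translate CuspForm.discriminant (heckeDiagMatrix N)).holo'
  bdd_at_cusps' hc :=
    (ModularForm.translate CuspForm.discriminant (heckeDiagMatrix N)).bdd_at_cusps'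
      (hc.mono (G0_le_conj N))

theorem coe_levelRaise (N : ℕ) [NeZero N] :
    ⇑(levelRaise N) = ⇑CuspForm.discriminant ∣[(12 : ℤ)] heckeDiagMatrix N := rfl

theorem levelRaise_apply (N : ℕ) [NeZero N] (τ : ℍ) :
    levelRaise N τ = (N : ℂ) ^ (11 : ℕ) * CuspForm.discriminant (heckeDiagMatrix N • τ) := by
  rw [coe_levelRaise, slash_heckeDiagMatrix_apply _ (NeZero.ne N)]
  norm_num

theorem qParam_heckeDiag (N : ℕ) [NeZero N] (τ : ℍ) :
    Function.Periodic.qParam 1 ((heckeDiagMatrix N • τ : ℍ) : ℂ) =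
      Function.Periodic.qParam 1 (τ : ℂ) ^ N := by
  rw [coe_heckeDiagMatrix_smul (NeZero.ne N)]
  simp only [Function.Periodic.qParam]
  rw [← Complex.exp_nat_mul]
  congr 1
  simp
  ring

theorem hasSum_levelRaise (N : ℕ) [NeZero N] (τ : ℍ) :
    HasSum (fun n : ℕ => (if N ∣ n then (N : ℂ) ^ 11 *
      (qExpansion 1 CuspForm.discriminant).coeff (n / N) else 0) •
        Function.Periodic.qParam 1 (τ : ℂ) ^ n) (levelRaise N τ) := by
  have hN : N ≠ 0 := NeZero.ne N
  have h1 := ModularForm.hasSum_qExpansion (f := CuspForm.discriminant) one_pos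
    one_mem_strictPeriods_SL (heckeDiagMatrix N • τ)
  rw [qParam_heckeDiag] at h1
  have h2 := h1.mul_left ((N : ℂ) ^ 11)
  rw [← levelRaise_apply] at h2
  have hinj : Function.Injective (fun m : ℕ => N * m) := fun a b hab =>
    Nat.eq_of_mul_eq_mul_left (Nat.pos_of_ne_zero hN) hab
  rw [← hinj.hasSum_iff]
  · have hfun : ((fun n : ℕ => (if N ∣ n then (N : ℂ) ^ 11 *
        (qExpansion 1 CuspForm.discriminant).coeff (n / N) else 0) •
          Function.Periodic.qParam 1 (τ : ℂ) ^ n) ∘ fun m : ℕ => N * m) =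
        fun i => (N : ℂ) ^ 11 * ((qExpansion 1 CuspForm.discriminant).coeff i *
          (Function.Periodic.qParam 1 (τ : ℂ) ^ N) ^ i) := by
      funext m
      simp [hN, pow_mul]
      ring
    rw [hfun]
    exact h2
  · intro n hn
    have : ¬ N ∣ n := fun ⟨m, hm⟩ => hn ⟨m, hm.symm⟩
    simp [this]

theorem qExpansion_levelRaise_coeff (N : ℕ) [NeZero N] (n : ℕ) :
    (qExpansion 1 (levelRaise N)).coeff n = if N ∣ n then (N : ℂ) ^ 11 *
      (qExpansion 1 CuspForm.discriminant).coeff (n / N) else 0 :=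
  (ModularFormClass.qExpansion_coeff_unique one_pos (CongruenceSubgroup.one_mem_strictPeriods_Gamma0 N)
    (f := levelRaise N) (hasSum_levelRaise N) n).symm

theorem qExpansion_levelRaise_mem_ratSeries (N : ℕ) [NeZero N] :
    qExpansion 1 (levelRaise N) ∈ ratSeries := by
  rw [mem_ratSeries_iff]
  intro n
  rw [qExpansion_levelRaise_coeff]
  split_ifs
  · obtain ⟨r, hr⟩ := mem_ratSeries_iff.mp qExpansion_discriminant_mem_ratSeries (n / N)
    exact ⟨(N : ℚ) ^ 11 * r, by rw [hr]; push_cast; ring⟩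
  · exact ⟨0, by simp⟩

end Fermat.Agent.S23
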