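import Fermat.Agent.S23.LevelOneSpan

set_option autoImplicit false

open UpperHalfPlane ModularForm ModularFormClass EisensteinSeries MatrixGroups CongruenceSubgroup

namespace Fermat.Agent.S23

theorem coeff_smul_form {w : ℤ} (c : ℂ) (x : ModularForm 𝒮ℒ w) (n : ℕ) :
    (qExpansion 1 ((c • x : ModularForm 𝒮ℒ w) : ℍ → ℂ)).coeff n = c * (qExpansion 1 x).coeff n := by
  rw [FunLike.coe_smul, ModularForm.qExpansion_smul one_pos one_mem_strictPeriods_SL,
    PowerSeries.coeff_smul, smul_eq_mul]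

theorem coeff_add_form {w : ℤ} (x y : ModularForm 𝒮ℒ w) (n : ℕ) :
    (qExpansion 1 ((x + y : ModularForm 𝒮ℒ w) : ℍ → ℂ)).coeff n
      = (qExpansion 1 x).coeff n + (qExpansion 1 y).coeff n := by
  rw [FunLike.coe_add, ModularForm.qExpansion_add one_pos one_mem_strictPeriods_SL, map_add]

theorem coeff_zero_form {w : ℤ} (n : ℕ) :
    (qExpansion 1 ((0 : ModularForm 𝒮ℒ w) : ℍ → ℂ)).coeff n = 0 := by
  rw [FunLike.coe_zero, qExpansion_zero, map_zero]

/-- Any additive map `ℂ → ℂ` acts on level one forms through `q`-expansion coefficients.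
If moreover its values are rational, the resulting form has bounded denominators. -/
theorem exists_map_coeff_aux {w : ℤ} (h : ModularForm 𝒮ℒ w) : ∀ r : ℂ →+ ℂ,
    ∃ h' : ModularForm 𝒮ℒ w, (∀ n, (qExpansion 1 h').coeff n = r ((qExpansion 1 h).coeff n)) ∧
      ((∀ x, ∃ q : ℚ, r x = (q : ℂ)) → ∃ M : ℕ, M ≠ 0 ∧ (M : ℂ) • qExpansion 1 h' ∈ intSeries) := by
  have hh : h ∈ Submodule.span ℂ (intForms w) := by rw [span_intForms]; exact Submodule.mem_top
  induction hh using Submodule.span_induction with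
  | mem x hx =>
    intro r
    have hx' := mem_intSeries_iff.1 hx
    refine ⟨r 1 • x, fun n => ?_, fun hr => ?_⟩
    · obtain ⟨m, hm⟩ := hx' n
      rw [coeff_smul_form, hm]
      have : r (m : ℂ) = m • r 1 := by
        rw [← map_zsmul]; simp
      rw [this]; simp [mul_comm]
    · obtain ⟨q, hq⟩ := hr 1
      refine ⟨q.den, q.den_nz, ?_⟩
      rw [mem_intSeries_iff]
      intro n
      obtain ⟨m, hm⟩ := hx' n
      refine ⟨q.num * m, ?_⟩
      rw [PowerSeries.coeff_smul, coeff_smul_form, hm, hq, smul_eq_mul, ← mul_assoc]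
      have h2 : ((q.den : ℚ)) * q = q.num := Rat.den_mul_eq_num q
      have h3 : ((q.den : ℂ)) * ((q : ℚ) : ℂ) = (q.num : ℂ) := by exact_mod_cast h2
      rw [h3]; push_cast; ring
  | zero =>
    intro r
    refine ⟨0, fun n => by rw [coeff_zero_form, map_zero], fun _ => ⟨1, one_ne_zero, ?_⟩⟩
    rw [FunLike.coe_zero, qExpansion_zero, smul_zero]
    exact zero_mem _
  | add x y _ _ hx hy =>
    intro r
    obtain ⟨x', hx1, hx2⟩ := hx r
    obtain ⟨y', hy1, hy2⟩ := hy r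
    refine ⟨x' + y', fun n => by rw [coeff_add_form, coeff_add_form, hx1, hy1, map_add],
      fun hr => ?_⟩
    obtain ⟨M₁, hM₁, h1⟩ := hx2 hr
    obtain ⟨M₂, hM₂, h2⟩ := hy2 hr
    refine ⟨M₁ * M₂, mul_ne_zero hM₁ hM₂, ?_⟩
    rw [FunLike.coe_add, ModularForm.qExpansion_add one_pos one_mem_strictPeriods_SL, smul_add]
    have e1 : ((M₁ * M₂ : ℕ) : ℂ) • qExpansion 1 x' = (M₂ : ℤ) • ((M₁ : ℂ) • qExpansion 1 x') := by
      rw [← Int.cast_smul_eq_zsmul ℂ, smul_smul]; push_cast; ring_nf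
    have e2 : ((M₁ * M₂ : ℕ) : ℂ) • qExpansion 1 y' = (M₁ : ℤ) • ((M₂ : ℂ) • qExpansion 1 y') := by
      rw [← Int.cast_smul_eq_zsmul ℂ, smul_smul]; push_cast; ring_nf
    rw [e1, e2]
    exact add_mem (zsmul_mem h1 _) (zsmul_mem h2 _)
  | smul c x _ hx =>
    intro r
    obtain ⟨x', hx1, hx2⟩ := hx (r.comp (AddMonoidHom.mulLeft c))
    refine ⟨x', fun n => ?_, fun hr => hx2 fun y => hr _⟩
    rw [hx1, coeff_smul_form]
    rfl

/-- Any additive map `ℂ → ℂ` acts on level one forms through `q`-expansion coefficients. -/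
theorem exists_map_coeff {w : ℤ} (r : ℂ →+ ℂ) (h : ModularForm 𝒮ℒ w) :
    ∃ h' : ModularForm 𝒮ℒ w, ∀ n, (qExpansion 1 h').coeff n = r ((qExpansion 1 h).coeff n) :=
  let ⟨h', h1, _⟩ := exists_map_coeff_aux h r
  ⟨h', h1⟩

theorem exists_conj_levelOne (σ : ℂ →+* ℂ) {w : ℤ} (h : ModularForm 𝒮ℒ w) :
    ∃ h' : ModularForm 𝒮ℒ w, qExpansion 1 h' = PowerSeries.map σ (qExpansion 1 h) := by
  obtain ⟨h', hh⟩ := exists_map_coeff σ.toAddMonoidHom h
  exact ⟨h', by ext n; rw [hh, PowerSeries.coeff_map]; rfl⟩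

theorem exists_map_coeff_cusp {w : ℤ} (r : ℂ →+ ℂ) (h : CuspForm 𝒮ℒ w) :
    ∃ h' : CuspForm 𝒮ℒ w, ∀ n, (qExpansion 1 h').coeff n = r ((qExpansion 1 h).coeff n) := by
  obtain ⟨h', hh⟩ := exists_map_coeff r (CuspForm.toModularFormₗ h)
  have hc : ((CuspForm.toModularFormₗ h : ModularForm 𝒮ℒ w) : ℍ → ℂ) = h := rfl
  rw [hc] at hh
  have h0 : (qExpansion 1 h').coeff 0 = 0 := by
    rw [hh, CuspFormClass.qExpansion_coeff_zero h one_pos one_mem_strictPeriods_SL, map_zero]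
  exact ⟨toCuspForm h' h0, hh⟩

/-- an additive retraction of `ℂ` onto `ℚ` -/
theorem exists_rat_retraction :
    ∃ r : ℂ →+ ℂ, (∀ x, ∃ q : ℚ, r x = (q : ℂ)) ∧ ∀ q : ℚ, r (q : ℂ) = (q : ℂ) := by
  obtain ⟨g, hg⟩ := LinearMap.exists_leftInverse_of_injective (Algebra.linearMap ℚ ℂ)
    (LinearMap.ker_eq_bot.2 (algebraMap ℚ ℂ).injective)
  refine ⟨((Algebra.linearMap ℚ ℂ).comp g).toAddMonoidHom, fun x => ⟨g x, rfl⟩, fun q => ?_⟩
  have := LinearMap.congr_fun hg q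
  simp only [LinearMap.coe_comp, Function.comp_apply, Algebra.linearMap_apply,
    LinearMap.id_coe, id_eq] at this
  show algebraMap ℚ ℂ (g (q : ℂ)) = q
  have h2 : (algebraMap ℚ ℂ q) = (q : ℂ) := rfl
  rw [← h2, this]

/-- level one forms with rational coefficients have bounded denominators -/
theorem exists_smul_mem_intSeries_of_rat {w : ℤ} (h : ModularForm 𝒮ℒ w)
    (hrat : ∀ n, ∃ q : ℚ, (qExpansion 1 h).coeff n = (q : ℂ)) :
    ∃ M : ℕ, M ≠ 0 ∧ (M : ℂ) • qExpansion 1 h ∈ intSeries := by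
  obtain ⟨r, hr1, hr2⟩ := exists_rat_retraction
  obtain ⟨h', h1, h2⟩ := exists_map_coeff_aux h r
  obtain ⟨M, hM, hM'⟩ := h2 hr1
  refine ⟨M, hM, ?_⟩
  have : qExpansion 1 h' = qExpansion 1 h := by
    ext n
    obtain ⟨q, hq⟩ := hrat n
    rw [h1, hq, hr2]
  rwa [this] at hM'

end Fermat.Agent.S23
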