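import Mathlib
import Fermat.Agent.S23.Basic
import Fermat.Agent.S23.LevelOneConj

set_option autoImplicit false

open UpperHalfPlane ModularForm CongruenceSubgroup
open scoped MatrixGroups Manifold

namespace Fermat.Agent.S23

/-- (P2) level one modular forms are spanned by forms with integral `q`-expansion. -/
theorem levelOne_span_intQ (w : ℤ) :
    Submodule.span ℂ {b : ModularForm 𝒮ℒ w | IntQ b} = ⊤ := by
  have : {b : ModularForm 𝒮ℒ w | IntQ b} = intForms w := by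
    ext b
    exact mem_intSeries_iff.symm
  rw [this, span_intForms]

/-- (P2') any `ℚ`-linear map can be applied coefficientwise to a level one form. -/
theorem levelOne_exists_map (L : ℂ →ₗ[ℚ] ℂ) {w : ℤ} {F : ℍ → ℂ} (h : IsMF 𝒮ℒ w F) :
    ∃ F' : ℍ → ℂ, IsMF 𝒮ℒ w F' ∧
      ∀ n, (qExpansion 1 F').coeff n = L ((qExpansion 1 F).coeff n) := by
  obtain ⟨a, rfl⟩ := h
  obtain ⟨a', ha'⟩ := exists_map_coeff L.toAddMonoidHom a
  exact ⟨a', ⟨a', rfl⟩, ha'⟩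

/-- (P2'') bounded denominators. -/
theorem levelOne_bounded_denoms (L : ℂ →ₗ[ℚ] ℚ) {w : ℤ} {F : ℍ → ℂ} (h : IsMF 𝒮ℒ w F) :
    ∃ M : ℕ, 0 < M ∧ ∀ n, ∃ m : ℤ, (M : ℚ) * L ((qExpansion 1 F).coeff n) = (m : ℚ) := by
  obtain ⟨a, rfl⟩ := h
  obtain ⟨a', h1, h2⟩ := exists_map_coeff_aux a ((Algebra.linearMap ℚ ℂ).comp L).toAddMonoidHom
  obtain ⟨M, hM, hM'⟩ := h2 fun x => ⟨L x, rfl⟩
  refine ⟨M, Nat.pos_of_ne_zero hM, fun n => ?_⟩
  obtain ⟨m, hm⟩ := mem_intSeries_iff.1 hM' n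
  refine ⟨m, ?_⟩
  rw [PowerSeries.coeff_smul, h1, smul_eq_mul] at hm
  have h3 : ((Algebra.linearMap ℚ ℂ).comp L).toAddMonoidHom ((qExpansion 1 a).coeff n)
      = ((L ((qExpansion 1 a).coeff n) : ℚ) : ℂ) := rfl
  rw [h3] at hm
  exact_mod_cast hm

end Fermat.Agent.S23
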