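import Mathlib

set_option autoImplicit false

open UpperHalfPlane ModularForm ModularFormClass EisensteinSeries MatrixGroups CongruenceSubgroup

namespace Fermat.Agent.S23

/-- power series over `ℂ` with integer coefficients -/
noncomputable def intSeries : Subring (PowerSeries ℂ) := (PowerSeries.map (Int.castRingHom ℂ)).range

theorem mem_intSeries_iff {P : PowerSeries ℂ} :
    P ∈ intSeries ↔ ∀ n, ∃ m : ℤ, P.coeff n = (m : ℂ) := by
  constructor
  · rintro ⟨Q, rfl⟩ n
    exact ⟨Q.coeff n, by simp⟩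
  · intro h
    choose m hm using h
    exact ⟨PowerSeries.mk m, by ext n; simp [hm]⟩

theorem exists_smul_E_mem_intSeries {k : ℕ} (hk : 3 ≤ k) (hk2 : Even k) :
    ∃ M : ℕ, M ≠ 0 ∧ (M : ℂ) • qExpansion 1 (E hk) ∈ intSeries := by
  set β : ℚ := -(2 * k / bernoulli k) with hβ
  refine ⟨β.den, β.den_nz, ?_⟩
  rw [mem_intSeries_iff]
  intro n
  rw [PowerSeries.coeff_smul, E_qExpansion_coeff hk hk2]
  split_ifs with h0
  · exact ⟨β.den, by simp⟩
  · refine ⟨β.num * (ArithmeticFunction.sigma (k - 1) n : ℕ), ?_⟩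
    have h1 : (-(2 * k / bernoulli k : ℂ)) = ((β : ℚ) : ℂ) := by
      rw [hβ]; push_cast; ring
    have h2 : ((β.den : ℚ)) * β = β.num := Rat.den_mul_eq_num β
    have h3 : ((β.den : ℂ)) * ((β : ℚ) : ℂ) = (β.num : ℂ) := by exact_mod_cast h2
    rw [h1, smul_eq_mul, ← mul_assoc, h3]
    push_cast; ring

theorem E₄_mem_intSeries : qExpansion 1 E₄ ∈ intSeries := by
  rw [mem_intSeries_iff]
  intro n
  rw [E_qExpansion_coeff _ ⟨2, rfl⟩]
  split_ifs with h0
  · exact ⟨1, by simp⟩
  · refine ⟨240 * (ArithmeticFunction.sigma 3 n : ℕ), ?_⟩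
    norm_num [show bernoulli 4 = -1 / 30 by decide +kernel]

theorem E₆_mem_intSeries : qExpansion 1 E₆ ∈ intSeries := by
  rw [mem_intSeries_iff]
  intro n
  rw [E_qExpansion_coeff _ ⟨3, rfl⟩]
  split_ifs with h0
  · exact ⟨1, by simp⟩
  · refine ⟨-504 * (ArithmeticFunction.sigma 5 n : ℕ), ?_⟩
    norm_num [show bernoulli 6 = 1 / 42 by decide +kernel]

theorem smul_discriminant_mem_intSeries :
    (1728 : ℂ) • qExpansion 1 ModularForm.discriminant ∈ intSeries := by
  have h : (1728 : ℂ) • qExpansion 1 ModularForm.discriminant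
      = qExpansion 1 E₄ ^ 3 - qExpansion 1 E₆ ^ 2 := by
    have h1 : ((1728 : ℂ) • (CuspForm.discriminant : CuspForm 𝒮ℒ 12) : ℍ → ℂ)
        = ((ModularForm.mcast (by decide) (E₄.pow 3) - ModularForm.mcast (by decide) (E₆.pow 2) :
            ModularForm 𝒮ℒ 12) : ℍ → ℂ) := by
      ext z
      have := discriminant_eq_E₄_cube_sub_E₆_sq z
      simp only [FunLike.coe_sub, coe_mcast, coe_pow, Pi.sub_apply, Pi.pow_apply, Pi.smul_apply,
        smul_eq_mul, CuspForm.coe_discriminant]
      rw [this]; ring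
    have h2 := ModularForm.qExpansion_smul one_pos one_mem_strictPeriods_SL (1728 : ℂ)
      (CuspForm.discriminant : CuspForm 𝒮ℒ 12)
    rw [CuspForm.coe_discriminant] at h2
    rw [← h2, ← CuspForm.coe_discriminant, h1]
    simp only [FunLike.coe_sub, coe_mcast,
      ModularForm.qExpansion_sub one_pos one_mem_strictPeriods_SL,
      ModularForm.qExpansion_pow one_pos one_mem_strictPeriods_SL]
  rw [h]
  exact sub_mem (pow_mem E₄_mem_intSeries 3) (pow_mem E₆_mem_intSeries 2)

end Fermat.Agent.S23
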