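import Mathlib
import Fermat.Agent.S23.LevelRaise

set_option autoImplicit false

namespace Fermat.Agent.S23

open UpperHalfPlane ModularForm MatrixGroups CongruenceSubgroup Matrix.SpecialLinearGroup
open scoped ModularForm Manifold Pointwise

/-- Hermite normal form of `diag(N,1) * γ`. -/
theorem exists_hermite (N : ℕ) [NeZero N] (γ : SL(2, ℤ)) :
    ∃ (μ : SL(2, ℤ)) (e D B : ℤ) (hne : (e : ℝ) * (D : ℝ) ≠ 0), 0 < e ∧ 0 < D ∧ e * D = N ∧ e ∣ γ 1 0 ∧
      heckeDiagMatrix N * mapGL ℝ γ = mapGL ℝ μ * upperTriangularGL e B D hne := by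
  have hN : N ≠ 0 := NeZero.ne N
  have hNpos : (0 : ℤ) < N := by exact_mod_cast Nat.pos_of_ne_zero hN
  have hdet : γ 0 0 * γ 1 1 - γ 0 1 * γ 1 0 = 1 := by
    have := γ.det_coe
    rw [Matrix.det_fin_two] at this
    exact this
  set u : ℤ := N * γ 0 0 with hu
  set v : ℤ := γ 1 0 with hv
  have hgpos : 0 < Int.gcd u v := by
    rw [Int.gcd_pos_iff]
    by_contra hcon
    push Not at hcon
    have h0 : γ 0 0 = 0 := by
      have := hcon.1
      rw [hu] at this
      rcases mul_eq_zero.mp this with h | h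
      · exact absurd h hNpos.ne'
      · exact h
    rw [h0, hcon.2] at hdet
    simp at hdet
  set e : ℤ := (Int.gcd u v : ℤ) with he
  have hepos : 0 < e := by rw [he]; exact_mod_cast hgpos
  have hcop : IsCoprime (u / e) (v / e) :=
    Int.isCoprime_iff_gcd_eq_one.mpr (Int.gcd_div_gcd_div_gcd hgpos)
  have hux : e * (u / e) = u := Int.mul_ediv_cancel' (Int.gcd_dvd_left ..)
  have hvy : e * (v / e) = v := Int.mul_ediv_cancel' (Int.gcd_dvd_right ..)
  set x := u / e with hx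
  set y := v / e with hy
  obtain ⟨μ, hμ0, hμ1⟩ := hcop.exists_SL2_col 0
  have hμdet : μ 0 0 * μ 1 1 - μ 0 1 * μ 1 0 = 1 := by
    have := μ.det_coe
    rw [Matrix.det_fin_two] at this
    exact this
  rw [hμ0, hμ1] at hμdet
  set s := μ 0 1 with hs
  set t := μ 1 1 with ht
  set B : ℤ := t * (N * γ 0 1) - s * γ 1 1 with hB
  set D : ℤ := x * γ 1 1 - y * (N * γ 0 1) with hD
  have heD : e * D = N := by
    have : e * D = (e * x) * γ 1 1 - (e * y) * (N * γ 0 1) := by rw [hD]; ring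
    rw [this, hux, hvy, hu]
    linear_combination (N : ℤ) * hdet
  have hDpos : 0 < D := by
    by_contra hcon
    push Not at hcon
    have : e * D ≤ 0 := mul_nonpos_of_nonneg_of_nonpos hepos.le hcon
    omega
  have hne : (e : ℝ) * (D : ℝ) ≠ 0 := by
    have : ((e * D : ℤ) : ℝ) = N := by rw [heD]; simp
    push_cast at this
    rw [this]
    exact_mod_cast hN
  refine ⟨μ, e, D, B, hne, hepos, hDpos, heD, Int.gcd_dvd_right .., ?_⟩
  apply Matrix.GeneralLinearGroup.ext
  intro i j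
  have e00 : (N : ℝ) * (γ 0 0 : ℤ) = (x : ℝ) * e := by
    have : u = x * e := by rw [mul_comm]; exact hux.symm
    rw [hu] at this
    exact_mod_cast this
  have e10 : (v : ℝ) = (y : ℝ) * e := by
    have : v = y * e := by rw [mul_comm]; exact hvy.symm
    exact_mod_cast this
  have e01 : (N : ℝ) * (γ 0 1 : ℤ) = (x : ℝ) * B + s * D := by
    have : (N : ℤ) * γ 0 1 = x * B + s * D := by
      rw [hB, hD]; linear_combination (-(N : ℤ) * γ 0 1) * hμdet
    exact_mod_cast this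
  have e11 : ((γ 1 1 : ℤ) : ℝ) = (y : ℝ) * B + t * D := by
    have : γ 1 1 = y * B + t * D := by
      rw [hB, hD]; linear_combination (-γ 1 1) * hμdet
    exact_mod_cast this
  fin_cases i <;> fin_cases j <;>
    simp [Matrix.mul_apply, Fin.sum_univ_two, val_heckeDiagMatrix hN, mapGL_coe_matrix,
      hμ0, hμ1, e00, e10, e01, e11, ← hs, ← ht, ← hv]

theorem growth_aux (τ1 τ2 : ℝ → ℍ) (a1 a2 K : ℝ) (ha1 : 0 < a1) (ha2 : 0 < a2) (hK0 : 0 ≤ K)
    (h1 : ∀ y, 0 < y → (τ1 y).im = a1 * y) (h2 : ∀ y, 0 < y → (τ2 y).im = a2 * y)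
    (hK : ∀ y, 0 < y → ‖CuspForm.discriminant (τ1 y)‖ = K * ‖CuspForm.discriminant (τ2 y)‖) :
    a2 ≤ a1 := by
  obtain ⟨C1, hC1, hb1⟩ := exp_isBigO_discriminant.exists_pos
  obtain ⟨C2, hC2, hb2⟩ := (CuspFormClass.exp_decay_atImInfty CuspForm.discriminant one_pos
    one_mem_strictPeriods_SL).exists_pos
  obtain ⟨Y1, hY1⟩ := (atImInfty_mem _).mp hb1.bound
  obtain ⟨Y2, hY2⟩ := (atImInfty_mem _).mp hb2.bound
  by_contra hcon
  push Not at hcon
  set c := 2 * Real.pi * (a2 - a1) with hc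
  have hcpos : 0 < c := by
    have := Real.pi_pos
    have : 0 < a2 - a1 := by linarith
    positivity
  set C := C1 * (K * C2) with hC
  set y := max (max (|Y1| / a1) (|Y2| / a2)) (max 1 (|C| / c)) with hy
  have hy1 : Y1 ≤ a1 * y := by
    have : |Y1| / a1 ≤ y := le_trans (le_max_left _ _) (le_max_left _ _)
    rw [div_le_iff₀ ha1] at this
    linarith [le_abs_self Y1]
  have hy2 : Y2 ≤ a2 * y := by
    have : |Y2| / a2 ≤ y := le_trans (le_max_right _ _) (le_max_left _ _)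
    rw [div_le_iff₀ ha2] at this
    linarith [le_abs_self Y2]
  have hy0 : 0 < y := lt_of_lt_of_le one_pos (le_trans (le_max_left _ _) (le_max_right _ _))
  have hy3 : C ≤ c * y := by
    have : |C| / c ≤ y := le_trans (le_max_right _ _) (le_max_right _ _)
    rw [div_le_iff₀ hcpos] at this
    linarith [le_abs_self C]
  have hA := hY1 (τ1 y) (by rw [h1 y hy0]; exact hy1)
  have hB := hY2 (τ2 y) (by rw [h2 y hy0]; exact hy2)
  simp only [Set.mem_ofPred_eq, Real.norm_eq_abs, Real.abs_exp] at hA hB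
  rw [h1 y hy0] at hA
  rw [h2 y hy0] at hB
  have hA' : Real.exp (-2 * Real.pi * (a1 * y)) ≤ C1 * ‖CuspForm.discriminant (τ1 y)‖ := hA
  rw [hK y hy0] at hA'
  have hchain : Real.exp (-2 * Real.pi * (a1 * y)) ≤ C * Real.exp (-2 * Real.pi * (a2 * y) / 1) := by
    calc Real.exp (-2 * Real.pi * (a1 * y)) ≤ C1 * (K * ‖CuspForm.discriminant (τ2 y)‖) := hA'
      _ ≤ C1 * (K * (C2 * Real.exp (-2 * Real.pi * (a2 * y) / 1))) := by gcongr
      _ = C * Real.exp (-2 * Real.pi * (a2 * y) / 1) := by rw [hC]; ring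
  have hfin : Real.exp (c * y) ≤ C := by
    have hpos := Real.exp_pos (2 * Real.pi * (a2 * y))
    have := mul_le_mul_of_nonneg_right hchain hpos.le
    have e1 : -2 * Real.pi * (a1 * y) + 2 * Real.pi * (a2 * y) = c * y := by rw [hc]; ring
    have e2 : -2 * Real.pi * (a2 * y) / 1 + 2 * Real.pi * (a2 * y) = 0 := by ring
    have e3 : C * Real.exp (-2 * Real.pi * (a2 * y) / 1) * Real.exp (2 * Real.pi * (a2 * y)) = C := by
      rw [mul_assoc, ← Real.exp_add, e2, Real.exp_zero, mul_one]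
    rw [← Real.exp_add, e1, e3] at this
    exact this
  have := Real.add_one_le_exp (c * y)
  linarith

theorem norm_slash_apply (f : ℍ → ℂ) (k : ℤ) (g : GL (Fin 2) ℝ) (τ : ℍ) :
    ‖(f ∣[k] g) τ‖ = ‖f (g • τ)‖ * |g.det.val| ^ (k - 1) * ‖denom g τ‖ ^ (-k) := by
  rw [slash_apply, norm_mul, norm_mul, norm_zpow, norm_zpow]
  congr 2
  · unfold UpperHalfPlane.σ
    split_ifs <;> simp
  · simp

/-- the point `i y` (junk for `y ≤ 0`). -/
noncomputable def iy (y : ℝ) : ℍ :=
  if h : 0 < y then ⟨Complex.I * y, by simpa using h⟩ else UpperHalfPlane.I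

theorem iy_im {y : ℝ} (hy : 0 < y) : (iy y).im = y := by
  simp [iy, hy, UpperHalfPlane.im]

theorem det_upperTriangularGL (a b d : ℝ) (had : a * d ≠ 0) :
    ((upperTriangularGL a b d had).det : ℝ) = a * d := by
  rw [Matrix.GeneralLinearGroup.val_det_apply, val_upperTriangularGL, Matrix.det_fin_two_of]
  ring

theorem denom_upperTriangularGL (a b d : ℝ) (had : a * d ≠ 0) (τ : ℍ) :
    denom (upperTriangularGL a b d had) τ = d := by
  simp [UpperHalfPlane.denom]

theorem mem_Gamma0_of_slash_eq (N : ℕ) [NeZero N] (γ : SL(2, ℤ))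
    (h : ⇑(levelRaise N) ∣[(12 : ℤ)] γ = ⇑(levelRaise N)) : γ ∈ Gamma0 N := by
  have hN : N ≠ 0 := NeZero.ne N
  have hNR : (0 : ℝ) < N := by exact_mod_cast Nat.pos_of_ne_zero hN
  obtain ⟨μ, e, D, B, hne, hepos, hDpos, heD, hdvd, hmat⟩ := exists_hermite N γ
  have heR : (0 : ℝ) < e := by exact_mod_cast hepos
  have hDR : (0 : ℝ) < D := by exact_mod_cast hDpos
  have heDR : (e : ℝ) * D = N := by exact_mod_cast heD
  set β := upperTriangularGL e B D hne with hβ
  have key : ⇑CuspForm.discriminant ∣[(12 : ℤ)] β =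
      ⇑CuspForm.discriminant ∣[(12 : ℤ)] heckeDiagMatrix N := by
    have h1 : (⇑CuspForm.discriminant ∣[(12 : ℤ)] heckeDiagMatrix N) ∣[(12 : ℤ)] (mapGL ℝ γ) =
        ⇑CuspForm.discriminant ∣[(12 : ℤ)] heckeDiagMatrix N := h
    rw [← SlashAction.slash_mul, hmat, SlashAction.slash_mul] at h1
    have h2 : ⇑CuspForm.discriminant ∣[(12 : ℤ)] (mapGL ℝ μ) = ⇑CuspForm.discriminant :=
      SlashInvariantFormClass.slash_action_eq CuspForm.discriminant _ ⟨μ, rfl⟩
    rw [h2] at h1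
    exact h1
  have hnorm : ∀ τ : ℍ, ‖CuspForm.discriminant (β • τ)‖ =
      (D : ℝ) ^ 12 * ‖CuspForm.discriminant (heckeDiagMatrix N • τ)‖ := by
    intro τ
    have h1 := congrArg (fun F : ℍ → ℂ => ‖F τ‖) key
    simp only [norm_slash_apply] at h1
    rw [det_upperTriangularGL, denom_upperTriangularGL, det_heckeDiagMatrix hN,
      denom_heckeDiagMatrix hN, heDR] at h1
    simp only [norm_one, one_zpow, mul_one, Complex.norm_real, Real.norm_eq_abs, abs_of_pos hDR,
      abs_of_pos hNR] at h1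
    have hNz : ((N : ℝ) ^ ((12 : ℤ) - 1)) ≠ 0 := zpow_ne_zero _ hNR.ne'
    have h3 : ‖CuspForm.discriminant (β • τ)‖ * (D : ℝ) ^ (-(12 : ℤ)) =
        ‖CuspForm.discriminant (heckeDiagMatrix N • τ)‖ := by
      apply mul_right_cancel₀ hNz
      linear_combination h1
    rw [← h3, mul_comm, mul_assoc, ← zpow_natCast, ← zpow_add₀ hDR.ne']
    simp
  have hle : (N : ℝ) ≤ e / D := by
    apply growth_aux (fun y => β • iy y) (fun y => heckeDiagMatrix N • iy y) (e / D) N ((D : ℝ) ^ 12)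
      (by positivity) hNR (by positivity)
    · intro y hy
      rw [im_smul_eq_div_normSq, det_upperTriangularGL, denom_upperTriangularGL, iy_im hy,
        abs_of_pos (by positivity)]
      simp only [Complex.normSq_ofReal]
      field_simp
    · intro y hy
      rw [im_smul_eq_div_normSq, det_heckeDiagMatrix hN, denom_heckeDiagMatrix hN, iy_im hy,
        abs_of_pos hNR]
      simp
    · intro y _
      exact hnorm (iy y)
  rw [le_div_iff₀ hDR] at hle
  have hle' : (N : ℤ) * D ≤ e := by exact_mod_cast hle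
  have hD1 : D = 1 := by
    by_contra hcon
    have hD2 : 2 ≤ D := by omega
    have : e * D ≤ e := by
      calc e * D = N := heD
        _ ≤ N * D := by nlinarith
        _ ≤ e := hle'
    nlinarith
  rw [hD1, mul_one] at heD
  rw [heD] at hdvd
  rw [Gamma0_mem]
  exact (ZMod.intCast_zmod_eq_zero_iff_dvd _ _).mpr hdvd

theorem exists_levelRaise (N : ℕ) [NeZero N] :
    ∃ A : ModularForm ((CongruenceSubgroup.Gamma0 N).map (Matrix.SpecialLinearGroup.mapGL ℝ)) 12,
      (∀ n, ∃ r : ℚ, (qExpansion 1 A).coeff n = (r : ℂ)) ∧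
      ∀ γ : SL(2, ℤ), (⇑A ∣[(12 : ℤ)] γ = ⇑A) → γ ∈ CongruenceSubgroup.Gamma0 N :=
  ⟨levelRaise N, mem_ratSeries_iff.mp (qExpansion_levelRaise_mem_ratSeries N),
    mem_Gamma0_of_slash_eq N⟩

end Fermat.Agent.S23
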