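import Mathlib
import Fermat.Agent.S23.Basic
import Fermat.Agent.S23.Stab
import Fermat.Agent.S23.LevelOneInt

set_option autoImplicit false

open UpperHalfPlane ModularForm CongruenceSubgroup
open scoped MatrixGroups Manifold

namespace Fermat.Agent.S23

/-- (P3) a modular form on `Γ₀(N)` with integral `q`-expansion whose stabiliser in `SL₂(ℤ)` is
exactly `Γ₀(N)`; e.g. `1728 Δ(Nz)`. -/
theorem exists_primitive_form (N : ℕ) [NeZero N] :
    ∃ A : ModularForm (Gamma0 N) 12, IntQ A ∧
      ∀ γ : SL(2, ℤ), (⇑A ∣[(12 : ℤ)] γ = ⇑A) → γ ∈ Gamma0 N := by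
  refine ⟨(1728 : ℂ) • levelRaise N, ?_, ?_⟩
  · intro n
    have h1 : qExpansion 1 (⇑((1728 : ℂ) • levelRaise N)) =
        (1728 : ℂ) • qExpansion 1 (levelRaise N) :=
      (IsMF.of (levelRaise N)).nice_G0.qx_smul 1728
    rw [h1, PowerSeries.coeff_smul, qExpansion_levelRaise_coeff]
    split_ifs
    · obtain ⟨m, hm⟩ := mem_intSeries_iff.mp smul_discriminant_mem_intSeries (n / N)
      rw [PowerSeries.coeff_smul] at hm
      refine ⟨(N : ℤ) ^ 11 * m, ?_⟩
      push_cast
      rw [← hm]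
      simp only [smul_eq_mul]
      have : (qExpansion 1 CuspForm.discriminant) = qExpansion 1 ModularForm.discriminant := rfl
      rw [this]
      ring
    · exact ⟨0, by simp⟩
  · intro γ hγ
    apply mem_Gamma0_of_slash_eq N γ
    have h2 : (⇑((1728 : ℂ) • levelRaise N) : ℍ → ℂ) = (1728 : ℂ) • ⇑(levelRaise N) := rfl
    rw [h2, ModularForm.SL_smul_slash] at hγ
    exact smul_right_injective _ (by norm_num : (1728 : ℂ) ≠ 0) hγ

end Fermat.Agent.S23
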