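import Mathlib.NumberTheory.ModularForms.NormTrace
import Mathlib.RingTheory.Polynomial.Vieta

set_option autoImplicit false

noncomputable section

namespace Fermat.Agent.S23

open UpperHalfPlane ModularForm SlashInvariantForm

open scoped ModularForm Topology Filter Manifold MatrixGroups

variable {𝒢 ℋ : Subgroup (GL (Fin 2) ℝ)} {F : Type*} (f : F) [FunLike F ℍ ℂ] {k : ℤ}

local notation "𝒬" => ℋ ⧸ (𝒢.subgroupOf ℋ)

section Reindex

variable {ι : Type*} [Fintype ι] {M : Type*} [CommRing M]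

theorem sum_powersetCard_prod_comp (e : ι ≃ ι) (G : ι → M) (i : ℕ) :
    ∑ s ∈ Finset.powersetCard i (Finset.univ : Finset ι), ∏ q ∈ s, G (e q) =
      ∑ s ∈ Finset.powersetCard i (Finset.univ : Finset ι), ∏ q ∈ s, G q := by
  have h1 : ∀ s : Finset ι, ∏ q ∈ s, G (e q) = ∏ q ∈ s.map e.toEmbedding, G q := fun s => by
    rw [Finset.prod_map]; rfl
  simp_rw [h1]
  have h2 := Finset.powersetCard_map e.toEmbedding i (Finset.univ : Finset ι)
  rw [Finset.map_univ_equiv] at h2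
  conv_rhs => rw [h2, Finset.sum_map]
  rfl

end Reindex

variable (ℋ) in
/-- The `i`-th elementary symmetric function of the `ℋ`-conjugates of `f`. -/
def esymmFun [SlashInvariantFormClass F 𝒢 k] [𝒢.IsFiniteRelIndex ℋ] (i : ℕ) : ℍ → ℂ :=
  let := Fintype.ofFinite 𝒬
  ∑ s ∈ Finset.powersetCard i (Finset.univ : Finset 𝒬), ∏ q ∈ s, quotientFunc f q

variable (ℋ) in
theorem esymmFun_slash [SlashInvariantFormClass F 𝒢 k] [𝒢.IsFiniteRelIndex ℋ]
    [ℋ.HasDetPlusMinusOne] (i : ℕ) {h : GL (Fin 2) ℝ} (hh : h ∈ ℋ) :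
    esymmFun ℋ f i ∣[k * i] h = esymmFun ℋ f i := by
  let := Fintype.ofFinite 𝒬
  unfold esymmFun
  rw [SlashAction.sum_slash]
  have key : ∀ s ∈ Finset.powersetCard i (Finset.univ : Finset 𝒬),
      (∏ q ∈ s, quotientFunc f q) ∣[k * i] h =
        ∏ q ∈ s, quotientFunc f ((MulAction.toPerm (⟨h, hh⟩ : ℋ)⁻¹ : Equiv.Perm 𝒬) q) := by
    intro s hs
    have hc : s.card = i := (Finset.mem_powersetCard.mp hs).2
    rw [← hc, ModularForm.prod_slash, Subgroup.HasDetPlusMinusOne.abs_det hh, one_zpow, one_smul]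
    exact Finset.prod_congr rfl fun q _ => quotientFunc_smul f hh q
  rw [Finset.sum_congr rfl key]
  exact sum_powersetCard_prod_comp _ (fun q => quotientFunc f q) i

section Filter

open Filter

theorem boundedAtFilter_sum {α ι : Type*} {l : Filter α} (s : Finset ι) {g : ι → α → ℂ}
    (h : ∀ i ∈ s, BoundedAtFilter l (g i)) : BoundedAtFilter l (∑ i ∈ s, g i) := by
  classical
  induction s using Finset.induction_on with
  | empty => simpa using const_boundedAtFilter l (0 : ℂ)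
  | insert a t ha ih =>
    rw [Finset.sum_insert ha]
    exact (h a (Finset.mem_insert_self a t)).add
      (ih fun i hi => h i (Finset.mem_insert_of_mem hi))

theorem zeroAtFilter_sum {α ι : Type*} {l : Filter α} (s : Finset ι) {g : ι → α → ℂ}
    (h : ∀ i ∈ s, ZeroAtFilter l (g i)) : ZeroAtFilter l (∑ i ∈ s, g i) := by
  classical
  induction s using Finset.induction_on with
  | empty => simpa using zero_zeroAtFilter (β := ℂ) l
  | insert a t ha ih =>
    rw [Finset.sum_insert ha]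
    exact (h a (Finset.mem_insert_self a t)).add
      (ih fun i hi => h i (Finset.mem_insert_of_mem hi))

theorem boundedAtFilter_prod {α ι : Type*} {l : Filter α} (s : Finset ι) {g : ι → α → ℂ}
    (h : ∀ i ∈ s, BoundedAtFilter l (g i)) : BoundedAtFilter l (∏ i ∈ s, g i) := by
  classical
  induction s using Finset.induction_on with
  | empty => simpa using const_boundedAtFilter l (1 : ℂ)
  | insert a t ha ih =>
    rw [Finset.prod_insert ha]
    exact (h a (Finset.mem_insert_self a t)).mul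
      (ih fun i hi => h i (Finset.mem_insert_of_mem hi))

theorem zeroAtFilter_prod {α ι : Type*} {l : Filter α} (s : Finset ι) (hs : s.Nonempty)
    {g : ι → α → ℂ} (h : ∀ i ∈ s, ZeroAtFilter l (g i)) : ZeroAtFilter l (∏ i ∈ s, g i) := by
  classical
  obtain ⟨a, ha⟩ := hs
  rw [← Finset.mul_prod_erase s g ha]
  exact (h a ha).mul_boundedAtFilter
    (boundedAtFilter_prod _ fun i hi => (h i (Finset.mem_of_mem_erase hi)).boundedAtFilter)

end Filter

theorem esymmFun_slash_eq [SlashInvariantFormClass F 𝒢 k] [𝒢.IsFiniteRelIndex ℋ] (i : ℕ)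
    (γ : GL (Fin 2) ℝ) :
    let := Fintype.ofFinite 𝒬
    esymmFun ℋ f i ∣[k * i] γ = ∑ s ∈ Finset.powersetCard i (Finset.univ : Finset 𝒬),
      |γ.det.val| ^ ((i : ℤ) - 1) • ∏ q ∈ s, (quotientFunc f q ∣[k] γ) := by
  let := Fintype.ofFinite 𝒬
  unfold esymmFun
  rw [SlashAction.sum_slash]
  refine Finset.sum_congr rfl fun s hs => ?_
  have hc : s.card = i := (Finset.mem_powersetCard.mp hs).2
  rw [← hc, ModularForm.prod_slash]

variable (ℋ) in
/-- The `i`-th elementary symmetric function of the conjugates of a modular form. -/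
def esymmMF [ModularFormClass F 𝒢 k] [𝒢.IsFiniteRelIndex ℋ] [ℋ.HasDetPlusMinusOne] (i : ℕ)
    (m : ℤ) (hm : m = k * i) : ModularForm ℋ m where
  toFun := esymmFun ℋ f i
  slash_action_eq' _ hh := by subst hm; exact esymmFun_slash ℋ f i hh
  holo' := by
    let := Fintype.ofFinite 𝒬
    unfold esymmFun
    exact .sum fun s _ => .prod (Quotient.forall.mpr fun ⟨r, hr⟩ _ ↦
      (ModularForm.translate f r⁻¹).holo')
  bdd_at_cusps' h γ := by
    subst hm
    rintro rfl
    let := Fintype.ofFinite 𝒬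
    rw [esymmFun_slash_eq]
    refine boundedAtFilter_sum _ fun s _ => Filter.BoundedAtFilter.smul _ ?_
    refine boundedAtFilter_prod _ (Quotient.forall.mpr fun ⟨r, hr⟩ _ ↦
      (ModularForm.translate f _).bdd_at_cusps' ?_ γ rfl)
    simpa using h.of_isFiniteRelIndex_conj hr

@[simp] theorem esymmMF_apply [ModularFormClass F 𝒢 k] [𝒢.IsFiniteRelIndex ℋ]
    [ℋ.HasDetPlusMinusOne] (i : ℕ) (m : ℤ) (hm : m = k * i) (z : ℍ) :
    esymmMF ℋ f i m hm z = esymmFun ℋ f i z := rfl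

variable (ℋ) in
/-- The `i`-th elementary symmetric function (`0 < i`) of the conjugates of a cusp form. -/
def esymmCF [CuspFormClass F 𝒢 k] [𝒢.IsFiniteRelIndex ℋ] [ℋ.HasDetPlusMinusOne] (i : ℕ)
    (hi : 0 < i) (m : ℤ) (hm : m = k * i) : CuspForm ℋ m where
  __ := esymmMF ℋ f i m hm
  zero_at_cusps' h γ := by
    subst hm
    rintro rfl
    let := Fintype.ofFinite 𝒬
    change IsZeroAtImInfty (esymmFun ℋ f i ∣[k * i] γ)
    rw [esymmFun_slash_eq]
    refine zeroAtFilter_sum _ fun s hs => Filter.ZeroAtFilter.smul _ ?_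
    have hc : s.card = i := (Finset.mem_powersetCard.mp hs).2
    refine zeroAtFilter_prod _ (Finset.card_pos.mp (hc ▸ hi)) (Quotient.forall.mpr fun ⟨r, hr⟩ _ ↦
      (CuspForm.translate f _).zero_at_cusps' ?_ γ rfl)
    simpa using h.of_isFiniteRelIndex_conj hr

@[simp] theorem esymmCF_apply [CuspFormClass F 𝒢 k] [𝒢.IsFiniteRelIndex ℋ]
    [ℋ.HasDetPlusMinusOne] (i : ℕ) (hi : 0 < i) (m : ℤ) (hm : m = k * i) (z : ℍ) :
    esymmCF ℋ f i hi m hm z = esymmFun ℋ f i z := rfl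

section Vieta

variable {ι : Type*} [Fintype ι]

theorem prod_sub_eq_sum_esymm (a : ι → ℂ) (x : ℂ) :
    ∏ q, (x - a q) = ∑ j ∈ Finset.range (Fintype.card ι + 1),
      (-1) ^ j * (∑ s ∈ Finset.powersetCard j (Finset.univ : Finset ι), ∏ q ∈ s, a q) *
        x ^ (Fintype.card ι - j) := by
  have h := congrArg (Polynomial.eval x)
    (Multiset.prod_X_sub_X_eq_sum_esymm ((Finset.univ : Finset ι).val.map a))
  simp only [Multiset.map_map, Function.comp_def, Multiset.card_map, Finset.card_val,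
    Finset.card_univ, Finset.esymm_map_val] at h
  rw [Polynomial.eval_multiset_prod, Polynomial.eval_finsetSum] at h
  simp only [Multiset.map_map, Function.comp_def, Polynomial.eval_sub, Polynomial.eval_X,
    Polynomial.eval_C, Polynomial.eval_mul, Polynomial.eval_pow, Polynomial.eval_neg,
    Polynomial.eval_one] at h
  rw [Finset.prod_eq_multiset_prod, h]
  exact Finset.sum_congr rfl fun j _ => by ring

end Vieta

theorem quotientFunc_one [SlashInvariantFormClass F 𝒢 k] :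
    quotientFunc (ℋ := ℋ) f (⟦1⟧ : 𝒬) = (f : ℍ → ℂ) := by
  rw [quotientFunc_mk]
  simp

variable (ℋ) in
theorem sum_esymmFun_mul_pow_eq_zero [SlashInvariantFormClass F 𝒢 k] [𝒢.IsFiniteRelIndex ℋ]
    (z : ℍ) :
    ∑ j ∈ Finset.range (Nat.card 𝒬 + 1),
      (-1) ^ j * esymmFun ℋ f j z * (f z) ^ (Nat.card 𝒬 - j) = 0 := by
  let := Fintype.ofFinite 𝒬
  have h := prod_sub_eq_sum_esymm (fun q : 𝒬 => quotientFunc f q z) (f z)
  rw [Nat.card_eq_fintype_card]
  have h0 : ∏ q : 𝒬, (f z - quotientFunc f q z) = 0 :=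
    Finset.prod_eq_zero (Finset.mem_univ (⟦1⟧ : 𝒬)) (by rw [quotientFunc_one]; simp)
  rw [h0] at h
  rw [h]
  refine Finset.sum_congr rfl fun j _ => ?_
  simp [esymmFun, Finset.sum_apply, Finset.prod_apply]

theorem esymmFun_zero [SlashInvariantFormClass F 𝒢 k] [𝒢.IsFiniteRelIndex ℋ] (z : ℍ) :
    esymmFun ℋ f 0 z = 1 := by
  simp [esymmFun]

theorem card_quot_pos [𝒢.IsFiniteRelIndex ℋ] : 0 < Nat.card 𝒬 :=
  Nat.pos_of_ne_zero (Subgroup.IsFiniteRelIndex.relIndex_ne_zero (H := 𝒢) (K := ℋ))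

variable (ℋ) in
/-- Monic relation, in the shape `f ^ d + ∑ r, e r * f ^ (d - 1 - r) = 0`. -/
theorem pow_add_sum_esymmFun_eq_zero [SlashInvariantFormClass F 𝒢 k] [𝒢.IsFiniteRelIndex ℋ]
    (z : ℍ) :
    (f z) ^ (Nat.card 𝒬) + ∑ r : Fin (Nat.card 𝒬),
      ((-1) ^ ((r : ℕ) + 1) * esymmFun ℋ f ((r : ℕ) + 1) z) *
        (f z) ^ (Nat.card 𝒬 - 1 - (r : ℕ)) = 0 := by
  have h := sum_esymmFun_mul_pow_eq_zero ℋ f z
  rw [Finset.sum_range_succ'] at h
  simp only [pow_zero, one_mul, esymmFun_zero, Nat.sub_zero] at h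
  rw [add_comm, Finset.sum_range] at h
  rw [← h]
  congr 1
  refine Finset.sum_congr rfl fun r _ => ?_
  rw [Nat.sub_sub, add_comm 1 (r : ℕ)]

variable (ℋ) in
/-- (P4a) A cusp form for `𝒢` is a root of a monic polynomial whose lower coefficients are cusp
forms for `ℋ`. -/
theorem exists_monic_relation_cuspForm [𝒢.IsFiniteRelIndex ℋ] [ℋ.HasDetOne]
    (f : CuspForm 𝒢 k) :
    ∃ e : (r : Fin (Nat.card 𝒬)) → CuspForm ℋ (k * ((r : ℤ) + 1)),
      ∀ z : ℍ, (f z) ^ (Nat.card 𝒬) +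
        ∑ r : Fin (Nat.card 𝒬), e r z * (f z) ^ (Nat.card 𝒬 - 1 - (r : ℕ)) = 0 := by
  refine ⟨fun r => ((-1 : ℂ) ^ ((r : ℕ) + 1)) •
    esymmCF ℋ f ((r : ℕ) + 1) (Nat.succ_pos _) (k * ((r : ℤ) + 1)) (by push_cast; ring),
    fun z => ?_⟩
  simpa using pow_add_sum_esymmFun_eq_zero ℋ f z

variable (ℋ) in
/-- (P4a) A modular form for `𝒢` is a root of a monic polynomial whose coefficients are modular
forms for `ℋ`. -/
theorem exists_monic_relation_modularForm [𝒢.IsFiniteRelIndex ℋ] [ℋ.HasDetOne]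
    (f : ModularForm 𝒢 k) :
    ∃ e : (r : Fin (Nat.card 𝒬)) → ModularForm ℋ (k * ((r : ℤ) + 1)),
      ∀ z : ℍ, (f z) ^ (Nat.card 𝒬) +
        ∑ r : Fin (Nat.card 𝒬), e r z * (f z) ^ (Nat.card 𝒬 - 1 - (r : ℕ)) = 0 := by
  refine ⟨fun r => ((-1 : ℂ) ^ ((r : ℕ) + 1)) •
    esymmMF ℋ f ((r : ℕ) + 1) (k * ((r : ℤ) + 1)) (by push_cast; ring), fun z => ?_⟩
  simpa using pow_add_sum_esymmFun_eq_zero ℋ f z

end Fermat.Agent.S23
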