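import Mathlib
import Fermat.Agent.S23.Basic
import Fermat.Agent.S23.DeltaN
import Fermat.Agent.S23.Symm

set_option autoImplicit false

open UpperHalfPlane ModularForm CongruenceSubgroup SlashInvariantForm
open scoped MatrixGroups Manifold

namespace Fermat.Agent.S23

section Algebra

open Matrix

/-- Cramer's rule for the normal equations of a Vandermonde system. -/
theorem det_smul_eq_vandermonde_mulVec_cramer {R : Type*} [CommRing R] {d : ℕ}
    (v φ : Fin d → R) :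
    ((vandermonde v)ᵀ * vandermonde v).det • φ =
      vandermonde v *ᵥ (cramer ((vandermonde v)ᵀ * vandermonde v) ((vandermonde v)ᵀ *ᵥ φ)) := by
  set W := vandermonde v with hW
  rw [cramer_eq_adjugate_mulVec, mulVec_mulVec, mulVec_mulVec, adjugate_mul_distrib]
  have h : W * (adjugate W * adjugate Wᵀ * Wᵀ) = (Wᵀ * W).det • (1 : Matrix (Fin d) (Fin d) R) := by
    rw [Matrix.mul_assoc, adjugate_mul, ← Matrix.mul_assoc, mul_adjugate, det_mul]
    simp [smul_smul]
  rw [Matrix.mul_assoc W, h, smul_mulVec, one_mulVec]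

end Algebra

section Weights

variable {Γ : Subgroup (GL (Fin 2) ℝ)}

/-- A determinant whose `(i, j)` entry has weight `α i + β j` has weight `∑ α + ∑ β`. -/
theorem IsMF.det [Γ.HasDetOne] {n : Type*} [Fintype n] [DecidableEq n]
    (M : Matrix n n (ℍ → ℂ)) (α β : n → ℤ) (h : ∀ i j, IsMF Γ (α i + β j) (M i j)) :
    IsMF Γ (∑ i, α i + ∑ j, β j) M.det := by
  rw [Matrix.det_apply']
  refine IsMF.sum _ fun σ _ => ?_
  have h1 : IsMF Γ (∑ i, α i + ∑ j, β j) (∏ i, M (σ i) i) := by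
    refine (IsMF.prod Finset.univ (wt := fun i => α (σ i) + β i) fun i _ => h (σ i) i).cast ?_
    rw [Finset.sum_add_distrib, Equiv.sum_comp σ α]
  have h2 : (((Equiv.Perm.sign σ : ℤˣ) : ℤ) : ℍ → ℂ) * ∏ i, M (σ i) i =
      (((Equiv.Perm.sign σ : ℤˣ) : ℤ) : ℂ) • ∏ i, M (σ i) i := by
    ext z
    simp
  rw [h2]
  exact h1.smul _

end Weights

section Slash

theorem slash_pow_of_det (F : ℍ → ℂ) (w : ℤ) (γ : GL (Fin 2) ℝ) (hγ : |γ.det.val| = 1) (s : ℕ) :
    (F ^ s) ∣[(s : ℤ) * w] γ = (F ∣[w] γ) ^ s := by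
  have h := ModularForm.prod_slash (k := w) (g := γ) (f := fun _ : ℕ => F) (s := Finset.range s)
  rw [hγ] at h
  simpa [mul_comm] using h

theorem slash_mul_of_det (F G : ℍ → ℂ) (w₁ w₂ : ℤ) (γ : GL (Fin 2) ℝ) (hγ : |γ.det.val| = 1) :
    (F * G) ∣[w₁ + w₂] γ = (F ∣[w₁] γ) * (G ∣[w₂] γ) := by
  rw [ModularForm.mul_slash, hγ, one_smul]

end Slash

section Quot

variable {𝒢 ℋ : Subgroup (GL (Fin 2) ℝ)}

local notation "𝒬" => ℋ ⧸ (𝒢.subgroupOf ℋ)

theorem quotientFunc_pow_mul [ℋ.HasDetPlusMinusOne] {w₁ w₂ w : ℤ} (a : ModularForm 𝒢 w₁)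
    (b : ModularForm 𝒢 w₂) (s : ℕ) (hw : w = (s : ℤ) * w₁ + w₂) (g : ModularForm 𝒢 w)
    (hg : (g : ℍ → ℂ) = (a : ℍ → ℂ) ^ s * (b : ℍ → ℂ)) (q : 𝒬) :
    quotientFunc g q = (quotientFunc a q) ^ s * quotientFunc b q := by
  subst hw
  induction q using Quotient.inductionOn with
  | h r =>
    have hdet : |(r.val⁻¹ : GL (Fin 2) ℝ).det.val| = 1 :=
      Subgroup.HasDetPlusMinusOne.abs_det (inv_mem r.2)
    simp only [quotientFunc_mk]
    rw [hg, slash_mul_of_det _ _ _ _ _ hdet, slash_pow_of_det _ _ _ hdet]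

theorem quotientFunc_one_form [ℋ.HasDetPlusMinusOne] [𝒢.HasDetPlusMinusOne] (q : 𝒬) :
    quotientFunc (1 : ModularForm 𝒢 0) q = 1 := by
  induction q using Quotient.inductionOn with
  | h r =>
    have hdet : |(r.val⁻¹ : GL (Fin 2) ℝ).det.val| = 1 :=
      Subgroup.HasDetPlusMinusOne.abs_det (inv_mem r.2)
    simp only [quotientFunc_mk]
    simpa using slash_pow_of_det 1 0 _ hdet 0

theorem mdiff_quotientFunc {w : ℤ} (a : ModularForm 𝒢 w) (q : 𝒬) : MDiff (quotientFunc a q) := by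
  induction q using Quotient.inductionOn with
  | h r => exact (ModularForm.translate a r.val⁻¹).holo'

/-- The "twisted power sums" of the conjugates are modular forms for the big group. -/
theorem isMF_sum_quotientFunc [𝒢.IsFiniteRelIndex ℋ] [ℋ.HasDetPlusMinusOne]
    [𝒢.HasDetPlusMinusOne] {w₁ w₂ : ℤ}
    (a : ModularForm 𝒢 w₁) (b : ModularForm 𝒢 w₂) (s : ℕ) {d : ℕ} (e : Fin d ≃ 𝒬) :
    IsMF ℋ ((s : ℤ) * w₁ + w₂) (∑ j, (quotientFunc a (e j)) ^ s * quotientFunc b (e j)) := by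
  obtain ⟨g, hg⟩ := ((IsMF.of a).pow s).mul (IsMF.of b)
  refine ⟨ModularForm.trace ℋ g, ?_⟩
  rw [ModularForm.coe_trace]
  let := Fintype.ofFinite 𝒬
  rw [← Equiv.sum_comp e]
  exact Finset.sum_congr rfl fun j _ => quotientFunc_pow_mul a b s rfl g hg (e j)

end Quot

section Distinct

variable {N : ℕ}

theorem quotientFunc_injective_of_stab {w : ℤ} (A : ModularForm (G0 N) w)
    (hA : ∀ γ : SL(2, ℤ), (⇑A ∣[w] γ = ⇑A) → γ ∈ Gamma0 N) :
    Function.Injective
      (fun q : (𝒮ℒ : Subgroup (GL (Fin 2) ℝ)) ⧸ ((G0 N).subgroupOf 𝒮ℒ) => quotientFunc A q) := by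
  intro q q'
  induction q using Quotient.inductionOn with
  | h r =>
  induction q' using Quotient.inductionOn with
  | h r' =>
    intro h
    simp only [quotientFunc_mk] at h
    have h1 : ⇑A ∣[w] (r.val⁻¹ * r'.val) = ⇑A := by
      rw [SlashAction.slash_mul, h, ← SlashAction.slash_mul]
      simp
    obtain ⟨γ, hγ⟩ : ∃ γ : SL(2, ℤ), Matrix.SpecialLinearGroup.mapGL ℝ γ = r.val⁻¹ * r'.val :=
      (mul_mem (inv_mem r.2) r'.2 : r.val⁻¹ * r'.val ∈ (𝒮ℒ : Subgroup (GL (Fin 2) ℝ)))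
    have h3 : ⇑A ∣[w] (Matrix.SpecialLinearGroup.mapGL ℝ γ) = ⇑A := by rw [hγ, h1]
    have h2 : γ ∈ Gamma0 N := hA γ h3
    refine QuotientGroup.eq.mpr ?_
    rw [Subgroup.mem_subgroupOf]
    exact ⟨γ, h2, by simpa using hγ⟩

end Distinct

/-- (P4a) `D f = ∑ c_s u_s` with `D, c_s` of level one and `u_s` with integral `q`-expansion. -/
theorem exists_linear_presentation (N : ℕ) [NeZero N] (k : ℤ) (f : CuspForm (Gamma0 N) k) :
    ∃ (w : ℤ) (D : ℍ → ℂ) (d : ℕ) (wt : Fin d → ℤ) (c u : Fin d → ℍ → ℂ),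
      IsMF 𝒮ℒ w D ∧ D ≠ 0 ∧ (∀ s, IsMF 𝒮ℒ (wt s) (c s)) ∧
      (∀ s, IsMF (G0 N) (w + k - wt s) (u s)) ∧ (∀ s, IntQ (u s)) ∧
      D * (f : ℍ → ℂ) = ∑ s, c s * u s := by
  obtain ⟨A, hAint, hAstab⟩ := exists_primitive_form N
  have hfin : Finite ((𝒮ℒ : Subgroup (GL (Fin 2) ℝ)) ⧸ ((G0 N).subgroupOf 𝒮ℒ)) := inferInstance
  obtain ⟨d, ⟨e'⟩⟩ := Finite.exists_equiv_fin
    ((𝒮ℒ : Subgroup (GL (Fin 2) ℝ)) ⧸ ((G0 N).subgroupOf 𝒮ℒ))
  set e := e'.symm with he
  set b : ModularForm (G0 N) k := CuspForm.toModularFormₗ f with hb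
  set v : Fin d → ℍ → ℂ := fun j => quotientFunc A (e j) with hv
  set φ : Fin d → ℍ → ℂ := fun j => quotientFunc b (e j) with hφ
  set W := Matrix.vandermonde v with hW
  set S := W.transpose * W with hS
  set t := W.transpose.mulVec φ with ht
  set α : Fin d → ℤ := fun l => ((l : ℕ) : ℤ) * 12 with hα
  set β : Fin d → Fin d → ℤ := fun m j => if j = m then k else α j with hβ
  have hSentry : ∀ l m, IsMF 𝒮ℒ (α l + α m) (S l m) := by
    intro l m
    have h := isMF_sum_quotientFunc (ℋ := 𝒮ℒ) A (1 : ModularForm (G0 N) 0) ((l : ℕ) + (m : ℕ)) e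
    have h1 : S l m = ∑ j, quotientFunc A (e j) ^ ((l : ℕ) + (m : ℕ)) *
        quotientFunc (1 : ModularForm (G0 N) 0) (e j) := by
      simp only [hS, Matrix.mul_apply, Matrix.transpose_apply, hW, Matrix.vandermonde_apply, hv,
        quotientFunc_one_form, mul_one, pow_add]
    rw [h1]
    exact h.cast (by simp only [α]; push_cast; ring)
  have htentry : ∀ l, IsMF 𝒮ℒ (α l + k) (t l) := by
    intro l
    have h := isMF_sum_quotientFunc (ℋ := 𝒮ℒ) A b (l : ℕ) e
    have h1 : t l = ∑ j, quotientFunc A (e j) ^ (l : ℕ) * quotientFunc b (e j) := by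
      simp only [ht, Matrix.mulVec, dotProduct, Matrix.transpose_apply, hW,
        Matrix.vandermonde_apply, hv, hφ]
    rw [h1]
    exact h
  have hβsum : ∀ m, ∑ j, β m j = ∑ j, α j + (k - α m) := by
    intro m
    have h1 : ∀ j, β m j = α j + (if j = m then k - α m else 0) := by
      intro j
      by_cases h : j = m <;> simp [hβ, h]
    simp_rw [h1]
    rw [Finset.sum_add_distrib, Finset.sum_ite_eq']
    simp
  refine ⟨∑ i, α i + ∑ j, α j, S.det, d, fun m => ∑ i, α i + ∑ j, β m j,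
    fun m => Matrix.cramer S t m, fun m => (A : ℍ → ℂ) ^ (m : ℕ), ?_, ?_, ?_, ?_, ?_, ?_⟩
  · exact IsMF.det S α α hSentry
  · have hvinj : Function.Injective v := fun i j hij =>
      e.injective (quotientFunc_injective_of_stab A hAstab hij)
    have hvd : ∀ j, MDiff (v j) := fun j => mdiff_quotientFunc A (e j)
    have hfac : ∀ i, ∀ j ∈ Finset.Ioi i, MDiff (v j - v i) := fun i j _ => (hvd j).sub (hvd i)
    have hin : ∀ i ∈ (Finset.univ : Finset (Fin d)), MDiff (∏ j ∈ Finset.Ioi i, (v j - v i)) :=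
      fun i _ => .prod fun j hj => hfac i j hj
    have hWdet : W.det ≠ 0 := by
      rw [hW, Matrix.det_vandermonde]
      intro h0
      obtain ⟨i, -, hi⟩ := (UpperHalfPlane.prod_eq_zero_iff hin).mp h0
      obtain ⟨j, hj, hij⟩ := (UpperHalfPlane.prod_eq_zero_iff (hfac i)).mp hi
      have : j = i := hvinj (sub_eq_zero.mp hij)
      rw [this] at hj
      simp at hj
    have hWd : MDiff W.det := by
      rw [hW, Matrix.det_vandermonde]
      exact .prod hin
    rw [hS, Matrix.det_mul, Matrix.det_transpose]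
    intro h0
    rcases (UpperHalfPlane.mul_eq_zero_iff hWd hWd).mp h0 with h | h <;> exact hWdet h
  · intro m
    show IsMF _ (∑ i, α i + ∑ j, β m j) (Matrix.cramer S t m)
    rw [Matrix.cramer_apply]
    refine IsMF.det _ α (β m) fun i j => ?_
    rw [Matrix.updateCol_apply]
    by_cases h : j = m
    · simpa [hβ, h] using htentry i
    · simpa [hβ, h] using hSentry i j
  · intro m
    refine ((IsMF.of A).pow (m : ℕ)).cast ?_
    show ((m : ℕ) : ℤ) * 12 = ∑ i, α i + ∑ j, α j + k - (∑ i, α i + ∑ j, β m j)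
    rw [hβsum]
    simp only [α]
    ring
  · intro m
    exact hAint.pow (IsMF.of A).nice_G0 _
  · have h := congrFun (det_smul_eq_vandermonde_mulVec_cramer v φ) (e.symm ⟦1⟧)
    have h1 : v (e.symm ⟦1⟧) = (A : ℍ → ℂ) := by
      simp only [hv, Equiv.apply_symm_apply]
      exact quotientFunc_one A
    have h2 : φ (e.symm ⟦1⟧) = (f : ℍ → ℂ) := by
      simp only [hφ, Equiv.apply_symm_apply]
      exact quotientFunc_one b
    rw [Pi.smul_apply, h2, smul_eq_mul] at h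
    rw [h]
    simp only [Matrix.mulVec, dotProduct, Matrix.vandermonde_apply, h1]
    exact Finset.sum_congr rfl fun m _ => mul_comm _ _

end Fermat.Agent.S23
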