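import Mathlib
import Fermat.Agent.S23.Basic
import Fermat.Agent.S23.Symm

set_option autoImplicit false

open UpperHalfPlane ModularForm CongruenceSubgroup
open scoped MatrixGroups Manifold

namespace Fermat.Agent.S23

/-- (P4b) a cusp form on `Γ₀(N)` is a root of a monic polynomial whose lower coefficients are
level one forms vanishing at `i∞`. -/
theorem exists_monic_relation (N : ℕ) [NeZero N] (k : ℤ) (f : CuspForm (Gamma0 N) k) :
    ∃ (d : ℕ) (e : Fin d → ℍ → ℂ), (∀ r : Fin d, IsMF 𝒮ℒ (((r : ℕ) + 1 : ℕ) * k) (e r)) ∧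
      (∀ r, IsZeroAtImInfty (e r)) ∧
      (f : ℍ → ℂ) ^ d + ∑ r : Fin d, e r * (f : ℍ → ℂ) ^ (d - 1 - (r : ℕ)) = 0 := by
  obtain ⟨e, he⟩ := exists_monic_relation_cuspForm 𝒮ℒ f
  refine ⟨_, fun r => e r, fun r => ?_, fun r => ?_, ?_⟩
  · exact IsMF.cast (by push_cast; ring)
      (IsMF.of (⟨(e r).toSlashInvariantForm, (e r).holo', fun hc =>
        ModularFormClass.bdd_at_cusps (e r) hc⟩ : ModularForm 𝒮ℒ _))
  · exact CuspFormClass.zero_at_infty (e r)
  · funext z
    simpa [Finset.sum_apply] using he z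

end Fermat.Agent.S23
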