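import Mathlib

set_option autoImplicit false

namespace Fermat.Agent.S23

theorem exists_int_of_isIntegralElem {K : Type*} [Field K] [CharZero K] {x : PowerSeries K}
    {A' B' : PowerSeries ℤ} (hA0 : A' ≠ 0)
    (hAB : A'.map (Int.castRingHom K) * x = B'.map (Int.castRingHom K))
    (hx : (PowerSeries.map (Int.castRingHom K)).IsIntegralElem x) :
    ∃ y : PowerSeries ℤ, x = y.map (Int.castRingHom K) := by
  have hφ : Function.Injective (PowerSeries.map (Int.castRingHom K)) :=
    PowerSeries.map_injective _ (Int.cast_injective)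
  let _ : Algebra (PowerSeries ℤ) (PowerSeries K) := (PowerSeries.map (Int.castRingHom K)).toAlgebra
  have hx' : IsIntegral (PowerSeries ℤ) x := hx
  have hinjS : Function.Injective (algebraMap (PowerSeries K) (FractionRing (PowerSeries K))) :=
    IsFractionRing.injective _ _
  have hinj : Function.Injective
      (Algebra.ofId (PowerSeries ℤ) (FractionRing (PowerSeries K))) :=
    fun a b hab => hφ (hinjS (by
      have h1 := IsScalarTower.algebraMap_apply (PowerSeries ℤ) (PowerSeries K)
        (FractionRing (PowerSeries K)) a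
      have h2 := IsScalarTower.algebraMap_apply (PowerSeries ℤ) (PowerSeries K)
        (FractionRing (PowerSeries K)) b
      have hab' : algebraMap (PowerSeries ℤ) (FractionRing (PowerSeries K)) a
          = algebraMap (PowerSeries ℤ) (FractionRing (PowerSeries K)) b := hab
      rw [h1, h2] at hab'
      exact hab'))
  let f : FractionRing (PowerSeries ℤ) →ₐ[PowerSeries ℤ] FractionRing (PowerSeries K) :=
    IsFractionRing.liftAlgHom hinj
  have hf : ∀ z : PowerSeries ℤ, f (algebraMap _ _ z)
      = algebraMap (PowerSeries K) (FractionRing (PowerSeries K))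
          (PowerSeries.map (Int.castRingHom K) z) := fun z => by
    rw [AlgHom.commutes, IsScalarTower.algebraMap_apply (PowerSeries ℤ) (PowerSeries K)
        (FractionRing (PowerSeries K))]
    rfl
  have hA'0 : algebraMap (PowerSeries K) (FractionRing (PowerSeries K))
      (PowerSeries.map (Int.castRingHom K) A') ≠ 0 := by
    intro h
    exact hA0 (hφ (hinjS (by rw [h, map_zero, map_zero])))
  set y : FractionRing (PowerSeries ℤ) :=
    algebraMap _ _ B' / algebraMap _ _ A' with hy
  have hfy : f y = algebraMap (PowerSeries K) (FractionRing (PowerSeries K)) x := by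
    rw [hy, map_div₀, hf, hf, ← hAB, map_mul, mul_div_cancel_left₀ _ hA'0]
  have hyint : IsIntegral (PowerSeries ℤ) y := by
    rw [← isIntegral_algHom_iff f f.toRingHom.injective, hfy]
    exact hx'.algebraMap
  obtain ⟨z, hz⟩ := IsIntegrallyClosed.isIntegral_iff.1 hyint
  refine ⟨z, hinjS ?_⟩
  rw [← hf, hz, hfy]

/-- (P6b) integral over `ℤ⟦q⟧` and a fraction of elements of `ℤ⟦q⟧` implies in `ℤ⟦q⟧`. -/
theorem mem_int_of_monic_of_fraction (x : PowerSeries ℚ) (D C : PowerSeries ℤ) (hD : D ≠ 0)
    (hfrac : D.map (Int.castRingHom ℚ) * x = C.map (Int.castRingHom ℚ))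
    {d : ℕ} (e : Fin d → PowerSeries ℤ)
    (hmonic : x ^ d + ∑ r : Fin d, (e r).map (Int.castRingHom ℚ) * x ^ (d - 1 - (r : ℕ)) = 0) :
    ∃ y : PowerSeries ℤ, x = y.map (Int.castRingHom ℚ) := by
  refine exists_int_of_isIntegralElem hD hfrac ?_
  refine ⟨Polynomial.X ^ d + ∑ r : Fin d, Polynomial.C (e r) * Polynomial.X ^ (d - 1 - (r : ℕ)),
    ?_, ?_⟩
  · apply Polynomial.monic_X_pow_add
    refine lt_of_le_of_lt (Polynomial.degree_sum_le _ _) ?_
    rw [Finset.sup_lt_iff (by exact WithBot.bot_lt_coe d)]
    intro i _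
    refine lt_of_le_of_lt (Polynomial.degree_C_mul_X_pow_le _ _) ?_
    have := i.2
    exact_mod_cast (by omega : d - 1 - (i : ℕ) < d)
  · simp only [Polynomial.eval₂_add, Polynomial.eval₂_pow, Polynomial.eval₂_X,
      Polynomial.eval₂_finsetSum, Polynomial.eval₂_mul, Polynomial.eval₂_C]
    exact hmonic

end Fermat.Agent.S23
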