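import Mathlib
import Fermat.Agent.S23.Basic
import Fermat.Agent.S23.LevelOne
import Fermat.Agent.S23.Linear
import Fermat.Agent.S23.Monic
import Fermat.Agent.S23.PowerSeriesInt

set_option autoImplicit false

open UpperHalfPlane ModularForm CongruenceSubgroup
open scoped MatrixGroups Manifold

namespace Fermat.Agent.S23

/-- apply a `ℚ`-linear functional coefficientwise. -/
noncomputable def applyL (L : ℂ →ₗ[ℚ] ℚ) (p : PowerSeries ℂ) : PowerSeries ℚ :=
  PowerSeries.mk fun n => L (p.coeff n)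

@[simp] lemma coeff_applyL (L : ℂ →ₗ[ℚ] ℚ) (p : PowerSeries ℂ) (n : ℕ) :
    (applyL L p).coeff n = L (p.coeff n) := by
  simp [applyL]

lemma applyL_zero (L : ℂ →ₗ[ℚ] ℚ) : applyL L 0 = 0 := by
  ext n; simp

lemma applyL_add (L : ℂ →ₗ[ℚ] ℚ) (p q : PowerSeries ℂ) :
    applyL L (p + q) = applyL L p + applyL L q := by
  ext n; simp

lemma applyL_sum (L : ℂ →ₗ[ℚ] ℚ) {ι : Type*} (s : Finset ι) (p : ι → PowerSeries ℂ) :
    applyL L (∑ i ∈ s, p i) = ∑ i ∈ s, applyL L (p i) := by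
  ext n; simp

lemma applyL_mul_map (L : ℂ →ₗ[ℚ] ℚ) (p : PowerSeries ℂ) (r : PowerSeries ℚ) :
    applyL L (p * r.map (algebraMap ℚ ℂ)) = applyL L p * r := by
  ext n
  simp only [coeff_applyL, PowerSeries.coeff_mul, map_sum, PowerSeries.coeff_map]
  refine Finset.sum_congr rfl fun x _ => ?_
  have : p.coeff x.1 * (algebraMap ℚ ℂ) (r.coeff x.2) = (r.coeff x.2) • p.coeff x.1 := by
    rw [Algebra.smul_def, mul_comm]
  rw [this, map_smul, smul_eq_mul, mul_comm]

lemma applyL_map (L : ℂ →ₗ[ℚ] ℚ) (hL : L 1 = 1) (r : PowerSeries ℚ) :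
    applyL L (r.map (algebraMap ℚ ℂ)) = r := by
  ext n
  simp only [coeff_applyL, PowerSeries.coeff_map]
  have : (algebraMap ℚ ℂ) (r.coeff n) = (r.coeff n) • (1 : ℂ) := by
    rw [Algebra.smul_def, mul_one]
  rw [this, map_smul, hL, smul_eq_mul, mul_one]

/-- the subring of `ℚ⟦X⟧` of series with integer coefficients. -/
noncomputable abbrev intSeriesRat : Subring (PowerSeries ℚ) :=
  (PowerSeries.map (Int.castRingHom ℚ)).range

lemma exists_denom (L : ℂ →ₗ[ℚ] ℚ) {w : ℤ} {F : ℍ → ℂ} (h : IsMF 𝒮ℒ w F) :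
    ∃ M : ℕ, 0 < M ∧ (M : PowerSeries ℚ) * applyL L (qExpansion 1 F) ∈ intSeriesRat := by
  obtain ⟨M, hM, hm⟩ := levelOne_bounded_denoms L h
  choose m hm using hm
  refine ⟨M, hM, PowerSeries.mk m, ?_⟩
  ext n
  have h1 : ((M : PowerSeries ℚ) * applyL L (qExpansion 1 F)).coeff n
      = (M : ℚ) * L ((qExpansion 1 F).coeff n) := by
    have : (M : PowerSeries ℚ) = PowerSeries.C (M : ℚ) := by simp
    rw [this, PowerSeries.coeff_C_mul, coeff_applyL]
  rw [h1, hm n]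
  simp

lemma exists_common_denom (L : ℂ →ₗ[ℚ] ℚ) {ι : Type*} [Fintype ι] {wt : ι → ℤ} {F : ι → ℍ → ℂ}
    (h : ∀ i, IsMF 𝒮ℒ (wt i) (F i)) :
    ∃ M : ℕ, 0 < M ∧ ∀ i, (M : PowerSeries ℚ) * applyL L (qExpansion 1 (F i)) ∈ intSeriesRat := by
  classical
  choose M hM hm using fun i => exists_denom L (h i)
  refine ⟨∏ i, M i, Finset.prod_pos fun i _ => hM i, fun i => ?_⟩
  have : (∏ j, M j) = (∏ j ∈ Finset.univ.erase i, M j) * M i :=
    (Finset.prod_erase_mul _ _ (Finset.mem_univ i)).symm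
  rw [this, Nat.cast_mul, mul_assoc]
  exact Subring.mul_mem _ (natCast_mem _ _) (hm i)

lemma exists_functional_ne_zero {z : ℂ} (hz : z ≠ 0) : ∃ L : ℂ →ₗ[ℚ] ℚ, L z ≠ 0 := by
  by_contra hcon
  push_neg at hcon
  exact hz ((Module.forall_dual_apply_eq_zero_iff ℚ z).mp hcon)

lemma exists_functional_one : ∃ L : ℂ →ₗ[ℚ] ℚ, L 1 = 1 := by
  obtain ⟨L, hL⟩ := exists_functional_ne_zero (one_ne_zero : (1 : ℂ) ≠ 0)
  exact ⟨(L 1)⁻¹ • L, by simp [hL]⟩

/-- (P6) bounded denominators. -/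
theorem exists_int_multiple (N : ℕ) [NeZero N] (k : ℤ) (f : CuspForm (Gamma0 N) k)
    (hf : ∀ n, ∃ r : ℚ, (qExpansion 1 f).coeff n = (r : ℂ)) :
    ∃ M : ℕ, 0 < M ∧ ∀ n, ∃ m : ℤ, (M : ℂ) * (qExpansion 1 f).coeff n = (m : ℂ) := by
  classical
  -- the rational power series of `f`
  choose r hr using hf
  set fq : PowerSeries ℚ := PowerSeries.mk r with hfq
  have hfq' : qExpansion 1 f = fq.map (algebraMap ℚ ℂ) := by
    ext n; simp [hfq, hr]
  have nf : Nice (f : ℍ → ℂ) := nice_cuspForm f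
  -- the linear presentation
  obtain ⟨w, D, d₁, wt, c, u, hD, hD0, hc, hu, huI, hlin⟩ := exists_linear_presentation N k f
  have nD : Nice D := hD.nice_SL
  have nc : ∀ s, Nice (c s) := fun s => (hc s).nice_SL
  have nu : ∀ s, Nice (u s) := fun s => (hu s).nice_G0
  have hDq : qExpansion 1 D ≠ 0 := fun h => hD0 (nD.qx_eq_zero_iff.mp h)
  obtain ⟨n₀, hn₀⟩ : ∃ n, (qExpansion 1 D).coeff n ≠ 0 := by
    by_contra hcon
    push_neg at hcon
    exact hDq (by ext n; simpa using hcon n)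
  obtain ⟨L₁, hL₁⟩ := exists_functional_ne_zero hn₀
  -- integral series of the `u s`
  have huq : ∀ s, ∃ y : PowerSeries ℤ,
      qExpansion 1 (u s) = (y.map (Int.castRingHom ℚ)).map (algebraMap ℚ ℂ) := by
    intro s
    obtain ⟨y, hy⟩ := IntQ.iff_mem_range.mp (huI s)
    refine ⟨y, ?_⟩
    rw [← hy]
    ext n
    simp
  choose uz huz using huq
  have hlinq : applyL L₁ (qExpansion 1 D) * fq
      = ∑ s, applyL L₁ (qExpansion 1 (c s)) * (uz s).map (Int.castRingHom ℚ) := by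
    have h1 : qExpansion 1 D * qExpansion 1 f = ∑ s, qExpansion 1 (c s) * qExpansion 1 (u s) := by
      rw [← nD.qx_mul nf, hlin, Nice.qx_sum _ fun s _ => (nc s).mul (nu s)]
      exact Finset.sum_congr rfl fun s _ => (nc s).qx_mul (nu s)
    have h2 := congrArg (applyL L₁) h1
    rw [hfq', applyL_mul_map, applyL_sum] at h2
    rw [h2]
    exact Finset.sum_congr rfl fun s _ => by rw [huz s, applyL_mul_map]
  obtain ⟨MD, hMD, hMDint⟩ := exists_denom L₁ hD
  obtain ⟨Mc, hMc, hMcint⟩ := exists_common_denom L₁ hc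
  -- the monic relation
  obtain ⟨d, e, he, -, hmon⟩ := exists_monic_relation N k f
  have ne : ∀ r, Nice (e r) := fun r => (he r).nice_SL
  obtain ⟨L₂, hL₂⟩ := exists_functional_one
  have hmonq : fq ^ d + ∑ r : Fin d, applyL L₂ (qExpansion 1 (e r)) * fq ^ (d - 1 - (r : ℕ)) = 0 := by
    have h1 : qExpansion 1 f ^ d
        + ∑ r : Fin d, qExpansion 1 (e r) * qExpansion 1 f ^ (d - 1 - (r : ℕ)) = 0 := by
      have h0 := congrArg (qExpansion 1) hmon
      rw [(nf.pow d).qx_add (Nice.sum _ fun r _ => (ne r).mul (nf.pow _)), nf.qx_pow,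
        Nice.qx_sum _ fun r _ => (ne r).mul (nf.pow _), qExpansion_zero] at h0
      rw [← h0]
      congr 1
      exact Finset.sum_congr rfl fun r _ => by rw [(ne r).qx_mul (nf.pow _), nf.qx_pow]
    have h2 := congrArg (applyL L₂) h1
    rw [hfq', applyL_add, applyL_sum, applyL_zero, ← map_pow, applyL_map L₂ hL₂] at h2
    rw [← h2]
    congr 1
    exact Finset.sum_congr rfl fun r _ => by rw [← map_pow, applyL_mul_map]
  obtain ⟨M, hM, hMint⟩ := exists_common_denom L₂ he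
  -- assemble
  set x : PowerSeries ℚ := (M : PowerSeries ℚ) * fq with hx
  have hDmem : ((MD * Mc : ℕ) : PowerSeries ℚ) * applyL L₁ (qExpansion 1 D) ∈ intSeriesRat := by
    rw [Nat.cast_mul, mul_comm (MD : PowerSeries ℚ), mul_assoc]
    exact Subring.mul_mem _ (natCast_mem _ _) hMDint
  have hCmem : (M : PowerSeries ℚ) * ∑ s, ((MD * Mc : ℕ) : PowerSeries ℚ) *
      (applyL L₁ (qExpansion 1 (c s)) * (uz s).map (Int.castRingHom ℚ)) ∈ intSeriesRat := by
    refine Subring.mul_mem _ (natCast_mem _ _) (Subring.sum_mem _ fun s _ => ?_)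
    rw [Nat.cast_mul, mul_assoc, ← mul_assoc (Mc : PowerSeries ℚ)]
    exact Subring.mul_mem _ (natCast_mem _ _) (Subring.mul_mem _ (hMcint s) ⟨uz s, rfl⟩)
  obtain ⟨Dz, hDz⟩ := hDmem
  obtain ⟨Cz, hCz⟩ := hCmem
  have hemem : ∀ r : Fin d, (M : PowerSeries ℚ) ^ ((r : ℕ) + 1) * applyL L₂ (qExpansion 1 (e r))
      ∈ intSeriesRat := by
    intro r
    rw [pow_succ, mul_assoc]
    exact Subring.mul_mem _ (Subring.pow_mem _ (natCast_mem _ _) _) (hMint r)
  choose ez hez using hemem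
  have hDz0 : Dz ≠ 0 := by
    intro h0
    rw [h0, map_zero] at hDz
    have h1 := congrArg (fun p : PowerSeries ℚ => p.coeff n₀) hDz
    have h2 : ((MD * Mc : ℕ) : PowerSeries ℚ) = PowerSeries.C ((MD * Mc : ℕ) : ℚ) := by simp
    simp only [h2, PowerSeries.coeff_C_mul, coeff_applyL, map_zero] at h1
    have h3 : ((MD * Mc : ℕ) : ℚ) ≠ 0 := by
      exact_mod_cast (Nat.mul_pos hMD hMc).ne'
    exact (mul_ne_zero h3 hL₁) h1.symm
  have hfrac : Dz.map (Int.castRingHom ℚ) * x = Cz.map (Int.castRingHom ℚ) := by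
    rw [hDz, hCz, hx, ← Finset.mul_sum, ← hlinq]
    ring
  have hmonic : x ^ d + ∑ r : Fin d, (ez r).map (Int.castRingHom ℚ) * x ^ (d - 1 - (r : ℕ)) = 0 := by
    have h1 : x ^ d + ∑ r : Fin d, (ez r).map (Int.castRingHom ℚ) * x ^ (d - 1 - (r : ℕ))
        = (M : PowerSeries ℚ) ^ d * (fq ^ d
          + ∑ r : Fin d, applyL L₂ (qExpansion 1 (e r)) * fq ^ (d - 1 - (r : ℕ))) := by
      rw [mul_add, Finset.mul_sum, hx, mul_pow]
      congr 1
      refine Finset.sum_congr rfl fun r _ => ?_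
      rw [hez r, mul_pow]
      have hd : (M : PowerSeries ℚ) ^ d
          = (M : PowerSeries ℚ) ^ ((r : ℕ) + 1) * (M : PowerSeries ℚ) ^ (d - 1 - (r : ℕ)) := by
        rw [← pow_add]
        congr 1
        have := r.2
        omega
      rw [hd]
      ring
    rw [h1, hmonq, mul_zero]
  obtain ⟨y, hy⟩ := mem_int_of_monic_of_fraction x Dz Cz hDz0 hfrac ez hmonic
  refine ⟨M, hM, fun n => ⟨y.coeff n, ?_⟩⟩
  have h1 := congrArg (fun p : PowerSeries ℚ => p.coeff n) hy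
  have h2 : (M : PowerSeries ℚ) = PowerSeries.C (M : ℚ) := by simp
  simp only [hx, h2, PowerSeries.coeff_C_mul, hfq, PowerSeries.coeff_mk, PowerSeries.coeff_map,
    eq_intCast] at h1
  rw [hr n]
  exact_mod_cast congrArg (fun q : ℚ => (q : ℂ)) h1

end Fermat.Agent.S23
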