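import Mathlib

set_option autoImplicit false

namespace Fermat.Agent.S23

open MvPolynomial

/-- The shift automorphism of a polynomial ring. -/
noncomputable def shiftEquiv (R : Type*) [CommRing R] (ι : Type*) (c : ι → R) :
    MvPolynomial ι R ≃ₐ[R] MvPolynomial ι R :=
  AlgEquiv.ofAlgHom (aeval fun i => X i + C (c i)) (aeval fun i => X i - C (c i))
    (by ext i; simp) (by ext i; simp)

theorem exists_ringEquiv_ne_of_transcendental (x : ℂ) (hx : Transcendental ℚ x) :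
    ∃ σ : ℂ ≃+* ℂ, σ x ≠ x := by
  classical
  have hind : AlgebraicIndepOn ℚ id ({x} : Set ℂ) :=
    algebraicIndependent_unique_type_iff.mpr hx
  obtain ⟨t, hxt, ht⟩ := exists_isTranscendenceBasis_superset hind
  have hxt' : x ∈ t := hxt rfl
  let _ := IsAlgClosed.isAlgClosure_of_transcendence_basis (Subtype.val : t → ℂ) ht
  let e0 := shiftEquiv ℚ t (fun i => if i = ⟨x, hxt'⟩ then 1 else 0)
  let e : Algebra.adjoin ℚ (Set.range (Subtype.val : t → ℂ)) ≃+*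
      Algebra.adjoin ℚ (Set.range (Subtype.val : t → ℂ)) :=
    (ht.1.aevalEquiv.symm.toRingEquiv.trans e0.toRingEquiv).trans ht.1.aevalEquiv.toRingEquiv
  refine ⟨IsAlgClosure.equivOfEquiv ℂ ℂ e, ?_⟩
  have h1 : (algebraMap (Algebra.adjoin ℚ (Set.range (Subtype.val : t → ℂ))) ℂ)
      (ht.1.aevalEquiv (X ⟨x, hxt'⟩)) = x := by
    simp
  have h2 := IsAlgClosure.equivOfEquiv_algebraMap ℂ ℂ e (ht.1.aevalEquiv (X ⟨x, hxt'⟩))
  rw [h1] at h2
  rw [h2]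
  have h3 : e (ht.1.aevalEquiv (X ⟨x, hxt'⟩)) = ht.1.aevalEquiv (X ⟨x, hxt'⟩ + C 1) := by
    simp [e, e0, shiftEquiv]
  rw [h3]
  simp

theorem exists_ringEquiv_ne_of_isAlgebraic (x : ℂ) (hx : IsAlgebraic ℚ x)
    (hx' : ∀ r : ℚ, x ≠ (r : ℂ)) : ∃ σ : ℂ ≃+* ℂ, σ x ≠ x := by
  classical
  let A : IntermediateField ℚ ℂ := algebraicClosure ℚ ℂ
  have hxA : x ∈ A := (mem_algebraicClosure_iff).mpr hx
  have : IsAlgClosure ℚ A := algebraicClosure.isAlgClosure ℚ ℂ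
  have : IsGalois ℚ A := inferInstance
  obtain ⟨τ, hτ⟩ : ∃ τ : A ≃ₐ[ℚ] A, τ ⟨x, hxA⟩ ≠ ⟨x, hxA⟩ := by
    by_contra hcon
    push Not at hcon
    obtain ⟨r, hr⟩ := (InfiniteGalois.mem_range_algebraMap_iff_fixed (k := ℚ) (K := A) ⟨x, hxA⟩).mpr hcon
    apply hx' r
    have := congrArg (Subtype.val) hr
    simpa using this.symm
  obtain ⟨ι, v, hv⟩ := exists_isTranscendenceBasis' A ℂ
  let _ := IsAlgClosed.isAlgClosure_of_transcendence_basis v hv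
  let e0 : MvPolynomial ι A ≃+* MvPolynomial ι A := MvPolynomial.mapEquiv ι τ.toRingEquiv
  let e : Algebra.adjoin A (Set.range v) ≃+* Algebra.adjoin A (Set.range v) :=
    (hv.1.aevalEquiv.symm.toRingEquiv.trans e0).trans hv.1.aevalEquiv.toRingEquiv
  refine ⟨IsAlgClosure.equivOfEquiv ℂ ℂ e, ?_⟩
  have h1 : (algebraMap (Algebra.adjoin A (Set.range v)) ℂ)
      (hv.1.aevalEquiv (C ⟨x, hxA⟩)) = x := by
    simp
  have h2 := IsAlgClosure.equivOfEquiv_algebraMap ℂ ℂ e (hv.1.aevalEquiv (C ⟨x, hxA⟩))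
  rw [h1] at h2
  rw [h2]
  have h3 : e (hv.1.aevalEquiv (C ⟨x, hxA⟩)) = hv.1.aevalEquiv (C (τ ⟨x, hxA⟩)) := by
    simp [e, e0]
  rw [h3]
  intro h4
  apply hτ
  apply Subtype.ext
  simpa using h4

theorem exists_ringEquiv_ne (x : ℂ) (hx : ∀ r : ℚ, x ≠ (r : ℂ)) : ∃ σ : ℂ ≃+* ℂ, σ x ≠ x := by
  by_cases h : IsAlgebraic ℚ x
  · exact exists_ringEquiv_ne_of_isAlgebraic x h hx
  · exact exists_ringEquiv_ne_of_transcendental x h

end Fermat.Agent.S23
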