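import Mathlib
import Fermat.Agent.S23.AutC

set_option autoImplicit false

namespace Fermat.Agent.S23

open Module

/-- Stability of a space of sequences under coefficientwise field automorphisms. -/
def AutStable (V : Submodule ℂ (ℕ → ℂ)) : Prop :=
  ∀ σ : ℂ ≃+* ℂ, ∀ v ∈ V, (fun n => σ (v n)) ∈ V

/-- the subspace of sequences in `V` vanishing at `n0`. -/
def cutAt (V : Submodule ℂ (ℕ → ℂ)) (n0 : ℕ) : Submodule ℂ (ℕ → ℂ) :=
  V ⊓ LinearMap.ker (LinearMap.proj (R := ℂ) (φ := fun _ : ℕ => ℂ) n0)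

theorem mem_cutAt {V : Submodule ℂ (ℕ → ℂ)} {n0 : ℕ} {w : ℕ → ℂ} :
    w ∈ cutAt V n0 ↔ w ∈ V ∧ w n0 = 0 := by
  simp [cutAt]

theorem cutAt_le (V : Submodule ℂ (ℕ → ℂ)) (n0 : ℕ) : cutAt V n0 ≤ V := inf_le_left

theorem AutStable.cutAt {V : Submodule ℂ (ℕ → ℂ)} (h : AutStable V) (n0 : ℕ) :
    AutStable (cutAt V n0) := by
  intro σ v hv
  rw [mem_cutAt] at hv ⊢
  exact ⟨h σ v hv.1, by simp [hv.2]⟩

theorem finrank_cutAt_lt {V : Submodule ℂ (ℕ → ℂ)} [FiniteDimensional ℂ V] {n0 : ℕ} {v : ℕ → ℂ}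
    (hv : v ∈ V) (hv0 : v n0 ≠ 0) : finrank ℂ (cutAt V n0) < finrank ℂ V := by
  apply Submodule.finrank_lt_finrank_of_lt
  refine lt_of_le_of_ne (cutAt_le V n0) ?_
  intro heq
  rw [← heq, mem_cutAt] at hv
  exact hv0 hv.2

theorem exists_rational_of_stable (V : Submodule ℂ (ℕ → ℂ)) [FiniteDimensional ℂ V]
    (h : AutStable V) (hV : V ≠ ⊥) :
    ∃ v ∈ V, v ≠ 0 ∧ ∀ n, ∃ r : ℚ, v n = (r : ℂ) := by
  induction hd : finrank ℂ V using Nat.strong_induction_on generalizing V with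
  | _ d ih =>
    obtain ⟨v, hv, hv0⟩ := Submodule.exists_mem_ne_zero_of_ne_bot hV
    obtain ⟨n0, hn0⟩ : ∃ n0, v n0 ≠ 0 := by
      by_contra hcon
      push Not at hcon
      exact hv0 (funext hcon)
    have : FiniteDimensional ℂ (cutAt V n0) := Submodule.finiteDimensional_of_le (cutAt_le V n0)
    by_cases hV' : cutAt V n0 = ⊥
    · refine ⟨(v n0)⁻¹ • v, V.smul_mem _ hv, ?_, ?_⟩
      · exact smul_ne_zero (inv_ne_zero hn0) hv0
      · set u := (v n0)⁻¹ • v with hu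
        have hu1 : u n0 = 1 := by simp [hu, hn0]
        have huV : u ∈ V := V.smul_mem _ hv
        intro n
        by_contra hcon
        push Not at hcon
        obtain ⟨σ, hσ⟩ := exists_ringEquiv_ne (u n) hcon
        have hmem : (fun n => σ (u n)) - u ∈ cutAt V n0 := by
          rw [mem_cutAt]
          exact ⟨V.sub_mem (h σ u huV) huV, by simp [hu1]⟩
        rw [hV', Submodule.mem_bot] at hmem
        apply hσ
        have := congrFun hmem n
        simpa [sub_eq_zero] using this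
    · obtain ⟨w, hw, hw0, hwr⟩ := ih _ (hd ▸ finrank_cutAt_lt hv hn0) (cutAt V n0) (h.cutAt n0) hV' rfl
      exact ⟨w, cutAt_le V n0 hw, hw0, hwr⟩

theorem span_rational_of_stable (V : Submodule ℂ (ℕ → ℂ)) [FiniteDimensional ℂ V]
    (h : ∀ σ : ℂ ≃+* ℂ, ∀ v ∈ V, (fun n => σ (v n)) ∈ V) :
    Submodule.span ℂ {v | v ∈ V ∧ ∀ n, ∃ r : ℚ, v n = (r : ℂ)} = V := by
  induction hd : finrank ℂ V using Nat.strong_induction_on generalizing V with
  | _ d ih =>
    apply le_antisymm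
    · rw [Submodule.span_le]
      intro v hv
      exact hv.1
    by_cases hV : V = ⊥
    · rw [hV]; exact bot_le
    obtain ⟨v, hv, hv0, hvr⟩ := exists_rational_of_stable V h hV
    obtain ⟨n0, hn0⟩ : ∃ n0, v n0 ≠ 0 := by
      by_contra hcon
      push Not at hcon
      exact hv0 (funext hcon)
    have : FiniteDimensional ℂ (cutAt V n0) := Submodule.finiteDimensional_of_le (cutAt_le V n0)
    have hcut := ih _ (hd ▸ finrank_cutAt_lt hv hn0) (cutAt V n0)
      (AutStable.cutAt (V := V) h n0) rfl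
    intro w hw
    have hw' : w - (w n0 / v n0) • v ∈ cutAt V n0 := by
      rw [mem_cutAt]
      refine ⟨V.sub_mem hw (V.smul_mem _ hv), ?_⟩
      simp [hn0]
    have hmono : Submodule.span ℂ {v | v ∈ cutAt V n0 ∧ ∀ n, ∃ r : ℚ, v n = (r : ℂ)} ≤
        Submodule.span ℂ {v | v ∈ V ∧ ∀ n, ∃ r : ℚ, v n = (r : ℂ)} :=
      Submodule.span_mono fun u hu => ⟨cutAt_le V n0 hu.1, hu.2⟩
    rw [← hcut] at hw'
    have h1 := hmono hw'
    have h2 : (w n0 / v n0) • v ∈ Submodule.span ℂ {v | v ∈ V ∧ ∀ n, ∃ r : ℚ, v n = (r : ℂ)} :=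
      Submodule.smul_mem _ _ (Submodule.subset_span ⟨hv, hvr⟩)
    have := Submodule.add_mem _ h1 h2
    simpa using this

/-- (P1) Galois descent for a finite dimensional space of sequences (abstract form). -/
theorem span_rational_of_conj_stable {V : Type*} [AddCommGroup V] [Module ℂ V]
    [FiniteDimensional ℂ V] (c : V →ₗ[ℂ] (ℕ → ℂ)) (hc : Function.Injective c)
    (hσ : ∀ (σ : ℂ ≃+* ℂ) (v : V), ∃ w : V, ∀ n, c w n = σ (c v n)) :
    Submodule.span ℂ {v : V | ∀ n, ∃ r : ℚ, c v n = (r : ℂ)} = ⊤ := by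
  have h1 := span_rational_of_stable (LinearMap.range c) (by
    rintro σ _ ⟨v, rfl⟩
    obtain ⟨w, hw⟩ := hσ σ v
    exact ⟨w, funext hw⟩)
  have h2 : {v | v ∈ LinearMap.range c ∧ ∀ n, ∃ r : ℚ, v n = (r : ℂ)} =
      c '' {v : V | ∀ n, ∃ r : ℚ, c v n = (r : ℂ)} := by
    ext v
    constructor
    · rintro ⟨⟨u, rfl⟩, hu⟩
      exact ⟨u, hu, rfl⟩
    · rintro ⟨u, hu, rfl⟩
      exact ⟨⟨u, rfl⟩, hu⟩
  rw [h2, Submodule.span_image, LinearMap.range_eq_map] at h1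
  exact Submodule.map_injective_of_injective hc h1

end Fermat.Agent.S23
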