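import Mathlib

set_option autoImplicit false

open UpperHalfPlane Filter Topology
open scoped MatrixGroups ModularForm Manifold

namespace Fermat.Agent.S23

lemma norm_le_of_monic_root {d : ℕ} (x : ℂ) (e : Fin d → ℂ)
    (h : x ^ d + ∑ r : Fin d, e r * x ^ (d - 1 - (r : ℕ)) = 0) :
    ‖x‖ ≤ max 1 (∑ r, ‖e r‖) := by
  by_cases hx : ‖x‖ ≤ 1
  · exact le_max_of_le_left hx
  · push Not at hx
    apply le_max_of_le_right
    rcases Nat.eq_zero_or_pos d with rfl | hd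
    · simp at h
    have h1 : ‖x‖ ^ d ≤ (∑ r, ‖e r‖) * ‖x‖ ^ (d - 1) := by
      have : x ^ d = - ∑ r : Fin d, e r * x ^ (d - 1 - (r : ℕ)) := by
        linear_combination h
      calc ‖x‖ ^ d = ‖x ^ d‖ := (norm_pow _ _).symm
        _ = ‖∑ r : Fin d, e r * x ^ (d - 1 - (r : ℕ))‖ := by rw [this, norm_neg]
        _ ≤ ∑ r : Fin d, ‖e r * x ^ (d - 1 - (r : ℕ))‖ := norm_sum_le _ _
        _ ≤ ∑ r : Fin d, ‖e r‖ * ‖x‖ ^ (d - 1) := by
            apply Finset.sum_le_sum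
            intro r _
            rw [norm_mul, norm_pow]
            apply mul_le_mul_of_nonneg_left _ (norm_nonneg _)
            exact pow_le_pow_right₀ hx.le (Nat.sub_le _ _)
        _ = (∑ r, ‖e r‖) * ‖x‖ ^ (d - 1) := by rw [Finset.sum_mul]
    have h2 : ‖x‖ ^ d = ‖x‖ * ‖x‖ ^ (d - 1) := by
      rw [← pow_succ']
      congr 1
      omega
    rw [h2] at h1
    exact le_of_mul_le_mul_right h1 (pow_pos (by linarith) _)

lemma norm_pow_le_of_monic_root {d : ℕ} (x : ℂ) (e : Fin d → ℂ)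
    (h : x ^ d + ∑ r : Fin d, e r * x ^ (d - 1 - (r : ℕ)) = 0)
    (hs : ∑ r, ‖e r‖ ≤ 1) :
    ‖x‖ ^ d ≤ ∑ r, ‖e r‖ := by
  have hx : ‖x‖ ≤ 1 := by
    simpa [hs] using norm_le_of_monic_root x e h
  have : x ^ d = - ∑ r : Fin d, e r * x ^ (d - 1 - (r : ℕ)) := by
    linear_combination h
  calc ‖x‖ ^ d = ‖x ^ d‖ := (norm_pow _ _).symm
    _ = ‖∑ r : Fin d, e r * x ^ (d - 1 - (r : ℕ))‖ := by rw [this, norm_neg]
    _ ≤ ∑ r : Fin d, ‖e r * x ^ (d - 1 - (r : ℕ))‖ := norm_sum_le _ _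
    _ ≤ ∑ r : Fin d, ‖e r‖ := by
        apply Finset.sum_le_sum
        intro r _
        rw [norm_mul, norm_pow]
        exact mul_le_of_le_one_right (norm_nonneg _) (pow_le_one₀ (norm_nonneg _) hx)

lemma monic_relation_div {d : ℕ} (c δ : ℂ) (e : Fin d → ℂ) (hδ : δ ≠ 0)
    (h : c ^ d + ∑ r : Fin d, e r * c ^ (d - 1 - (r : ℕ)) * δ ^ ((r : ℕ) + 1) = 0) :
    (c / δ) ^ d + ∑ r : Fin d, e r * (c / δ) ^ (d - 1 - (r : ℕ)) = 0 := by
  have hδd : δ ^ d ≠ 0 := pow_ne_zero _ hδ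
  have key : ((c / δ) ^ d + ∑ r : Fin d, e r * (c / δ) ^ (d - 1 - (r : ℕ))) * δ ^ d = 0 := by
    rw [← h, add_mul, Finset.sum_mul, div_pow, div_mul_cancel₀ _ hδd]
    congr 1
    apply Finset.sum_congr rfl
    intro r _
    have hr : d = (d - 1 - (r : ℕ)) + ((r : ℕ) + 1) := by
      have := r.2
      omega
    have : δ ^ d = δ ^ (d - 1 - (r : ℕ)) * δ ^ ((r : ℕ) + 1) := by
      rw [← pow_add, ← hr]
    rw [this, div_pow]
    have h2 : δ ^ (d - 1 - (r : ℕ)) ≠ 0 := pow_ne_zero _ hδ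
    field_simp
  exact (mul_eq_zero.mp key).resolve_right hδd

theorem exists_analytic_quotient {U : Set ℂ} (hU : IsOpen U) (hUc : IsPreconnected U)
    {d : ℕ} (C D : ℂ → ℂ) (e : Fin d → ℂ → ℂ)
    (hC : AnalyticOnNhd ℂ C U) (hD : AnalyticOnNhd ℂ D U)
    (he : ∀ r, ∀ z ∈ U, ContinuousAt (e r) z)
    (hD0 : ∃ z ∈ U, D z ≠ 0)
    (hrel : ∀ z ∈ U, C z ^ d +
      ∑ r : Fin d, e r z * C z ^ (d - 1 - (r : ℕ)) * D z ^ ((r : ℕ) + 1) = 0) :
    ∃ g : ℂ → ℂ, AnalyticOnNhd ℂ g U ∧ ∀ z ∈ U, g z * D z = C z := by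
  classical
  set F : ℂ → ℂ := fun z => C z / D z with hFdef
  have hF : MeromorphicOn F U := fun z hz =>
    (hC z hz).meromorphicAt.div (hD z hz).meromorphicAt
  have hDne : ∀ x ∈ U, ∀ᶠ w in 𝓝[≠] x, D w ≠ 0 := by
    intro x hx
    rcases (hD x hx).eventually_eq_zero_or_eventually_ne_zero with h | h
    · exfalso
      obtain ⟨z, hz, hz0⟩ := hD0
      exact hz0 (hD.eqOn_zero_of_preconnected_of_eventuallyEq_zero hUc hx h hz)
    · exact h
  have hUev : ∀ x ∈ U, ∀ᶠ w in 𝓝[≠] x, w ∈ U := fun x hx =>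
    eventually_nhdsWithin_of_eventually_nhds (hU.mem_nhds hx)
  have hord : ∀ x ∈ U, 0 ≤ meromorphicOrderAt F x := by
    intro x hx
    by_contra hneg
    push Not at hneg
    have ht := tendsto_cobounded_of_meromorphicOrderAt_neg hneg
    have hcont : ContinuousAt (fun w => max 1 (∑ r, ‖e r w‖)) x := by
      have h1 : ContinuousAt (fun w => ∑ r, ‖e r w‖) x :=
        tendsto_finsetSum _ (fun r _ => (he r x hx).norm)
      exact Filter.Tendsto.max tendsto_const_nhds h1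
    have hb : ∀ᶠ w in 𝓝[≠] x, max 1 (∑ r, ‖e r w‖) < max 1 (∑ r, ‖e r x‖) + 1 :=
      eventually_nhdsWithin_of_eventually_nhds
        (hcont.eventually_lt continuousAt_const (by simp))
    have hbig : ∀ᶠ w in 𝓝[≠] x, max 1 (∑ r, ‖e r x‖) + 1 < ‖F w‖ := by
      have := (tendsto_norm_cobounded_atTop.comp ht).eventually_gt_atTop
        (max 1 (∑ r, ‖e r x‖) + 1)
      simpa using this
    have hle : ∀ᶠ w in 𝓝[≠] x, ‖F w‖ ≤ max 1 (∑ r, ‖e r w‖) := by
      filter_upwards [hDne x hx, hUev x hx] with w hw hwU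
      exact norm_le_of_monic_root (F w) (fun r => e r w)
        (monic_relation_div (C w) (D w) (fun r => e r w) hw (hrel w hwU))
    obtain ⟨w, h1, h2, h3⟩ := (hb.and (hbig.and hle)).exists
    linarith
  refine ⟨toMeromorphicNFOn F U, ?_, ?_⟩
  · intro x hx
    have hnf := meromorphicNFOn_toMeromorphicNFOn F U hx
    rw [← hnf.meromorphicOrderAt_nonneg_iff_analyticAt, meromorphicOrderAt_toMeromorphicNFOn hF hx]
    exact hord x hx
  · have han : AnalyticOnNhd ℂ (toMeromorphicNFOn F U) U := by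
      intro x hx
      have hnf := meromorphicNFOn_toMeromorphicNFOn F U hx
      rw [← hnf.meromorphicOrderAt_nonneg_iff_analyticAt,
        meromorphicOrderAt_toMeromorphicNFOn hF hx]
      exact hord x hx
    intro x hx
    have h1 : (fun w => toMeromorphicNFOn F U w * D w) =ᶠ[𝓝[≠] x] C := by
      filter_upwards [hF.toMeromorphicNFOn_eq_self_on_nhdsNE hx, hDne x hx] with w hw hw2
      rw [hw, hFdef]
      exact div_mul_cancel₀ _ hw2
    have h2 := (ContinuousAt.eventuallyEq_nhds_iff_eventuallyEq_nhdsNE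
      ((han x hx).continuousAt.mul (hD x hx).continuousAt) (hC x hx).continuousAt).mp h1
    exact h2.eq_of_nhds

lemma monic_relation_scale {d : ℕ} (a t : ℂ) (E : Fin d → ℂ)
    (h : a ^ d + ∑ r : Fin d, E r * a ^ (d - 1 - (r : ℕ)) = 0) :
    (a * t) ^ d + ∑ r : Fin d, (E r * t ^ ((r : ℕ) + 1)) * (a * t) ^ (d - 1 - (r : ℕ)) = 0 := by
  have key : (a * t) ^ d + ∑ r : Fin d, (E r * t ^ ((r : ℕ) + 1)) * (a * t) ^ (d - 1 - (r : ℕ))
      = t ^ d * (a ^ d + ∑ r : Fin d, E r * a ^ (d - 1 - (r : ℕ))) := by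
    rw [mul_add, Finset.mul_sum, mul_pow, mul_comm (a ^ d)]
    congr 1
    apply Finset.sum_congr rfl
    intro r _
    have hr : d = (d - 1 - (r : ℕ)) + ((r : ℕ) + 1) := by
      have := r.2
      omega
    have : t ^ d = t ^ (d - 1 - (r : ℕ)) * t ^ ((r : ℕ) + 1) := by
      rw [← pow_add, ← hr]
    rw [this, mul_pow]
    ring
  rw [key, h, mul_zero]

/-- Holomorphic quotient on the upper half plane. -/
theorem exists_mdiff_quotient {d : ℕ} (C D : ℍ → ℂ) (e : Fin d → ℍ → ℂ)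
    (hC : MDiff C) (hD : MDiff D) (he : ∀ r, MDiff (e r)) (hD0 : D ≠ 0)
    (hrel : ∀ z : ℍ, C z ^ d +
      ∑ r : Fin d, e r z * C z ^ (d - 1 - (r : ℕ)) * D z ^ ((r : ℕ) + 1) = 0) :
    ∃ g : ℍ → ℂ, MDiff g ∧ ∀ z, g z * D z = C z := by
  have hU : IsOpen {z : ℂ | 0 < z.im} := isOpen_upperHalfPlaneSet
  have hUc : IsPreconnected {z : ℂ | 0 < z.im} :=
    (Complex.isConnected_of_upperHalfPlane subset_rfl (by grind)).isPreconnected
  have hC' := (UpperHalfPlane.mdifferentiable_iff.mp hC).analyticOnNhd hU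
  have hD' := (UpperHalfPlane.mdifferentiable_iff.mp hD).analyticOnNhd hU
  have he' : ∀ r, ∀ z ∈ {z : ℂ | 0 < z.im}, ContinuousAt (e r ∘ ofComplex) z := fun r z hz =>
    (((UpperHalfPlane.mdifferentiable_iff.mp (he r)).analyticOnNhd hU) z hz).continuousAt
  obtain ⟨z0, hz0⟩ : ∃ z, D z ≠ 0 := by
    by_contra hcon
    push Not at hcon
    exact hD0 (funext hcon)
  obtain ⟨g, hg, hgD⟩ := exists_analytic_quotient hU hUc (C ∘ ofComplex) (D ∘ ofComplex)
    (fun r => e r ∘ ofComplex) hC' hD' he'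
    ⟨z0, z0.im_pos, by simpa [ofComplex_apply] using hz0⟩
    (fun z hz => by simpa using hrel (ofComplex z))
  refine ⟨fun z => g z, ?_, fun z => ?_⟩
  · rw [UpperHalfPlane.mdifferentiable_iff]
    refine hg.differentiableOn.congr ?_
    intro z hz
    simp [Function.comp_apply, ofComplex_apply_of_im_pos hz]
  · simpa [ofComplex_apply] using hgD z z.im_pos

/-- If `x` is (pointwise) a root of a monic polynomial whose lower coefficients tend to zero
at `i∞`, then `x` tends to zero at `i∞`. -/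
lemma isZeroAtImInfty_of_monic_root {d : ℕ} (x : ℍ → ℂ) (e : Fin d → ℍ → ℂ)
    (he : ∀ r, IsZeroAtImInfty (e r))
    (h : ∀ z, x z ^ d + ∑ r : Fin d, e r z * x z ^ (d - 1 - (r : ℕ)) = 0) :
    IsZeroAtImInfty x := by
  rcases Nat.eq_zero_or_pos d with rfl | hd
  · simpa using h I
  have hsum : Tendsto (fun z => ∑ r, ‖e r z‖) atImInfty (𝓝 0) := by
    have : Tendsto (fun z => ∑ r, ‖e r z‖) atImInfty (𝓝 (∑ _r : Fin d, (0 : ℝ))) :=
      tendsto_finsetSum _ (fun r _ => by simpa using (he r).norm)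
    simpa using this
  rw [IsZeroAtImInfty, ZeroAtFilter, Metric.tendsto_nhds]
  intro ε hε
  have h1 : ∀ᶠ z in atImInfty, ∑ r, ‖e r z‖ < min 1 (ε ^ d) :=
    hsum.eventually_lt tendsto_const_nhds (lt_min one_pos (pow_pos hε d))
  filter_upwards [h1] with z hz
  have h2 := norm_pow_le_of_monic_root (x z) (fun r => e r z) (h z)
    (hz.le.trans (min_le_left _ _))
  have h3 : ‖x z‖ ^ d < ε ^ d := h2.trans_lt (hz.trans_le (min_le_right _ _))
  simpa using lt_of_pow_lt_pow_left₀ d hε.le h3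

theorem exists_cuspForm_of_monic_relation {𝒢 : Subgroup (GL (Fin 2) ℝ)} [𝒢.IsArithmetic]
    [𝒢.HasDetPlusMinusOne] {k w : ℤ} {d : ℕ}
    (C : ModularForm 𝒢 (k + w)) (D : ModularForm 𝒢 w) (hD : D ≠ 0)
    (e : Fin d → ℍ → ℂ) (he_holo : ∀ r, MDiff (e r))
    (he_slash : ∀ (r : Fin d) (γ : SL(2, ℤ)), e r ∣[k * (((r : ℕ) : ℤ) + 1)] γ = e r)
    (he_zero : ∀ r, IsZeroAtImInfty (e r))
    (hrel : ∀ z : ℍ, C z ^ d +
      ∑ r : Fin d, e r z * C z ^ (d - 1 - (r : ℕ)) * D z ^ ((r : ℕ) + 1) = 0) :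
    ∃ g : CuspForm 𝒢 k, ∀ z, g z * D z = C z := by
  have hD0 : (D : ℍ → ℂ) ≠ 0 := fun h => hD (DFunLike.coe_injective h)
  obtain ⟨g, hg, hgD⟩ := exists_mdiff_quotient C D e C.holo' D.holo' he_holo hD0 hrel
  have hgD' : g * D = C := funext hgD
  -- the monic relation for `g`
  have hmon : ∀ z, g z ^ d + ∑ r : Fin d, e r z * g z ^ (d - 1 - (r : ℕ)) = 0 := by
    have hP : MDiff (g ^ d + ∑ r : Fin d, e r * g ^ (d - 1 - (r : ℕ))) :=
      (hg.pow d).add (MDifferentiable.sum fun r _ => (he_holo r).mul (hg.pow _))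
    have hDd : MDiff ((D : ℍ → ℂ) ^ d) := D.holo'.pow d
    have hprod : ((D : ℍ → ℂ) ^ d) * (g ^ d + ∑ r : Fin d, e r * g ^ (d - 1 - (r : ℕ))) = 0 := by
      funext z
      have h1 := hrel z
      rw [← hgD z] at h1
      simp only [Pi.mul_apply, Pi.pow_apply, Pi.add_apply, Finset.sum_apply, Pi.zero_apply]
      rw [← h1, mul_add, Finset.mul_sum, mul_pow, mul_comm (g z ^ d)]
      congr 1
      apply Finset.sum_congr rfl
      intro r _
      have hr : d = (d - 1 - (r : ℕ)) + ((r : ℕ) + 1) := by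
        have := r.2
        omega
      have : D z ^ d = D z ^ (d - 1 - (r : ℕ)) * D z ^ ((r : ℕ) + 1) := by
        rw [← pow_add, ← hr]
      rw [this, mul_pow]
      ring
    rcases (UpperHalfPlane.mul_eq_zero_iff hDd hP).mp hprod with h | h
    · exact absurd (funext fun z => pow_eq_zero_iff (n := d) (by
        rintro rfl
        simpa using hrel I) |>.mp (congrFun h z)) hD0
    · intro z
      simpa using congrFun h z
  -- slash invariance
  have hslash : ∀ γ ∈ 𝒢, g ∣[k] γ = g := by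
    intro γ hγ
    have h1 : (g * D) ∣[k + w] γ = g ∣[k] γ * D := by
      rw [ModularForm.mul_slash, Subgroup.HasDetPlusMinusOne.abs_det hγ, one_smul,
        SlashInvariantFormClass.slash_action_eq D γ hγ]
    rw [hgD', SlashInvariantFormClass.slash_action_eq C γ hγ, ← hgD'] at h1
    have h2 : (g ∣[k] γ - g) * D = 0 := by
      rw [sub_mul, ← h1, sub_self]
    rcases (UpperHalfPlane.mul_eq_zero_iff ((hg.slash k γ).sub hg) D.holo').mp h2 with h | h
    · exact sub_eq_zero.mp h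
    · exact absurd h hD0
  refine ⟨{ toFun := g, slash_action_eq' := hslash, holo' := hg, zero_at_cusps' := ?_ }, hgD⟩
  intro c hc
  rw [Subgroup.IsArithmetic.isCusp_iff_isCusp_SL2Z] at hc
  rw [OnePoint.isZeroAt_iff_forall_SL2Z hc]
  intro γ _
  apply isZeroAtImInfty_of_monic_root (g ∣[k] γ) e he_zero
  intro z
  have h1 := monic_relation_scale (g (γ • z)) (denom γ z ^ (-k)) (fun r => e r (γ • z))
    (hmon (γ • z))
  rw [ModularForm.SL_slash_apply]
  convert h1 using 3 with r _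
  have h2 := congrFun (he_slash r γ) z
  rw [ModularForm.SL_slash_apply] at h2
  rw [← h2]
  congr 1
  rw [← zpow_natCast, ← zpow_mul]
  congr 1
  push_cast
  rw [neg_mul]

/-- Version of `exists_cuspForm_of_monic_relation` recording the `q`-expansion identity. -/
theorem exists_cuspForm_qExpansion_of_monic_relation {𝒢 : Subgroup (GL (Fin 2) ℝ)}
    [𝒢.IsArithmetic] [𝒢.HasDetPlusMinusOne] {h : ℝ} (hh : 0 < h) (h𝒢 : h ∈ 𝒢.strictPeriods)
    {k w : ℤ} {d : ℕ}
    (C : ModularForm 𝒢 (k + w)) (D : ModularForm 𝒢 w) (hD : D ≠ 0)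
    (e : Fin d → ℍ → ℂ) (he_holo : ∀ r, MDiff (e r))
    (he_slash : ∀ (r : Fin d) (γ : SL(2, ℤ)), e r ∣[k * (((r : ℕ) : ℤ) + 1)] γ = e r)
    (he_zero : ∀ r, IsZeroAtImInfty (e r))
    (hrel : ∀ z : ℍ, C z ^ d +
      ∑ r : Fin d, e r z * C z ^ (d - 1 - (r : ℕ)) * D z ^ ((r : ℕ) + 1) = 0) :
    ∃ g : CuspForm 𝒢 k, (∀ z, g z * D z = C z) ∧
      qExpansion h g * qExpansion h D = qExpansion h C := by
  obtain ⟨g, hg⟩ := exists_cuspForm_of_monic_relation C D hD e he_holo he_slash he_zero hrel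
  refine ⟨g, hg, ?_⟩
  rw [← ModularForm.qExpansion_mul_coe hh h𝒢 g D]
  congr 1
  exact funext hg

end Fermat.Agent.S23
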