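import Mathlib
import Fermat.Agent.S23.Removable

set_option autoImplicit false

open UpperHalfPlane Filter Topology
open scoped Manifold

namespace Fermat.Agent.S23

/-- (P5a) if `C / D` is a root of a monic polynomial with holomorphic coefficients, then `D ∣ C`
in the ring of holomorphic functions on `ℍ` (removable singularities). -/
theorem exists_holo_quotient {C D : ℍ → ℂ} (hC : MDiff C) (hD : MDiff D) (hD0 : D ≠ 0) {d : ℕ}
    (e : Fin d → ℍ → ℂ) (he : ∀ r, MDiff (e r))
    (hrel : C ^ d + ∑ r : Fin d, e r * C ^ (d - 1 - (r : ℕ)) * D ^ ((r : ℕ) + 1) = 0) :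
    ∃ g : ℍ → ℂ, MDiff g ∧ g * D = C := by
  obtain ⟨g, hg, hgD⟩ := exists_mdiff_quotient C D e hC hD he hD0
    (fun z => by simpa using congrFun hrel z)
  exact ⟨g, hg, funext hgD⟩

/-- (P5b) roots of a monic polynomial whose lower coefficients tend to `0` tend to `0`. -/
theorem tendsto_zero_of_monic_relation {α : Type*} {l : Filter α} {d : ℕ} {x : α → ℂ}
    {e : Fin d → α → ℂ} (he : ∀ r, Tendsto (e r) l (𝓝 0))
    (h : ∀ z, x z ^ d + ∑ r : Fin d, e r z * x z ^ (d - 1 - (r : ℕ)) = 0) :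
    Tendsto x l (𝓝 0) := by
  rcases Nat.eq_zero_or_pos d with rfl | hd
  · have : IsEmpty α := ⟨fun z => by simpa using h z⟩
    rw [Filter.filter_eq_bot_of_isEmpty l]
    exact tendsto_bot
  have hsum : Tendsto (fun z => ∑ r, ‖e r z‖) l (𝓝 0) := by
    have : Tendsto (fun z => ∑ r, ‖e r z‖) l (𝓝 (∑ _r : Fin d, (0 : ℝ))) :=
      tendsto_finsetSum _ (fun r _ => by simpa using (he r).norm)
    simpa using this
  rw [Metric.tendsto_nhds]
  intro ε hε
  have h1 : ∀ᶠ z in l, ∑ r, ‖e r z‖ < min 1 (ε ^ d) :=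
    hsum.eventually_lt tendsto_const_nhds (lt_min one_pos (pow_pos hε d))
  filter_upwards [h1] with z hz
  have h2 := norm_pow_le_of_monic_root (x z) (fun r => e r z) (h z)
    (hz.le.trans (min_le_left _ _))
  have h3 : ‖x z‖ ^ d < ε ^ d := h2.trans_lt (hz.trans_le (min_le_right _ _))
  simpa using lt_of_pow_lt_pow_left₀ d hε.le h3

end Fermat.Agent.S23
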