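import Mathlib
import Fermat.Agent.S23.Basic
import Fermat.Agent.S23.LevelOne
import Fermat.Agent.S23.Linear
import Fermat.Agent.S23.Monic
import Fermat.Agent.S23.Analytic

set_option autoImplicit false

open UpperHalfPlane ModularForm CongruenceSubgroup Filter Topology
open scoped MatrixGroups Manifold

namespace Fermat.Agent.S23

lemma Nice.isZeroAtImInfty_iff {F : ℍ → ℂ} (hF : Nice F) :
    IsZeroAtImInfty F ↔ (qExpansion 1 F).coeff 0 = 0 := by
  have hper : Function.Periodic (F ∘ ofComplex) ((1 : ℝ) : ℂ) := by simpa using hF.per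
  rw [qExpansion_coeff_zero one_pos hF.analyticAt hper]
  refine ⟨fun h => h.valueAtInfty_eq_zero, fun h => ?_⟩
  simp_rw [IsZeroAtImInfty, ZeroAtFilter, ← h, ← cuspFunction_apply_zero one_pos hF.analyticAt hper]
  exact (hF.analyticAt.continuousAt.tendsto.comp (qParam_tendsto_atImInfty one_pos)).congr
    (fun τ => eq_cuspFunction τ one_ne_zero hper)

/-- a ring automorphism of `ℂ` as a `ℚ`-linear map. -/
noncomputable def ratLin (σ : ℂ ≃+* ℂ) : ℂ →ₗ[ℚ] ℂ :=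
  ((σ : ℂ →+* ℂ).toRatAlgHom).toLinearMap

@[simp] lemma ratLin_apply (σ : ℂ ≃+* ℂ) (x : ℂ) : ratLin σ x = σ x := rfl

lemma levelOne_exists_conj (σ : ℂ ≃+* ℂ) {w : ℤ} {F : ℍ → ℂ} (h : IsMF 𝒮ℒ w F) :
    ∃ F' : ℍ → ℂ, IsMF 𝒮ℒ w F' ∧
      qExpansion 1 F' = (qExpansion 1 F).map (σ : ℂ →+* ℂ) := by
  obtain ⟨F', h1, h2⟩ := levelOne_exists_map (ratLin σ) h
  exact ⟨F', h1, by ext n; simp [h2]⟩

lemma IntQ.map_eq {F : ℍ → ℂ} (h : IntQ F) (σ : ℂ ≃+* ℂ) :
    (qExpansion 1 F).map (σ : ℂ →+* ℂ) = qExpansion 1 F := by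
  ext n
  obtain ⟨m, hm⟩ := h n
  simp [hm]

lemma slash_SL_of_isMF {w : ℤ} {F : ℍ → ℂ} (h : IsMF 𝒮ℒ w F) (γ : SL(2, ℤ)) :
    F ∣[w] γ = F := by
  obtain ⟨a, rfl⟩ := h
  exact a.slash_action_eq' _ ⟨γ, rfl⟩


lemma pow_split {R : Type*} [Monoid R] (x : R) {d : ℕ} (r : Fin d) :
    x ^ d = x ^ (d - 1 - (r : ℕ)) * x ^ ((r : ℕ) + 1) := by
  rw [← pow_add]; congr 1; have := r.2; omega

lemma slash_SL_apply (F : ℍ → ℂ) (k : ℤ) (γ : SL(2, ℤ)) (z : ℍ) :
    (F ∣[k] γ) z = F (γ • z) * denom γ z ^ (-k) :=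
  ModularForm.SL_slash_apply ..

/-- a monic relation with level one coefficients is inherited by all `SL₂(ℤ)`-translates. -/
lemma monic_relation_slash {k : ℤ} {d : ℕ} {g : ℍ → ℂ} {e : Fin d → ℍ → ℂ}
    (he : ∀ r : Fin d, IsMF 𝒮ℒ (((r : ℕ) + 1 : ℕ) * k) (e r))
    (h : g ^ d + ∑ r : Fin d, e r * g ^ (d - 1 - (r : ℕ)) = 0) (γ : SL(2, ℤ)) (z : ℍ) :
    (g ∣[k] γ) z ^ d + ∑ r : Fin d, e r z * (g ∣[k] γ) z ^ (d - 1 - (r : ℕ)) = 0 := by
  have h1 := congrFun h (γ • z)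
  simp only [Pi.add_apply, Pi.pow_apply, Finset.sum_apply, Pi.mul_apply, Pi.zero_apply] at h1
  set j : ℂ := denom γ z with hj
  have hj0 : j ≠ 0 := denom_ne_zero γ z
  have he' : ∀ r : Fin d, e r z = e r (γ • z) * j ^ (-((((r : ℕ) + 1 : ℕ) : ℤ) * k)) := by
    intro r
    have := congrFun (slash_SL_of_isMF (he r) γ) z
    rw [slash_SL_apply] at this
    exact this.symm
  have key : (g ∣[k] γ) z ^ d + ∑ r : Fin d, e r z * (g ∣[k] γ) z ^ (d - 1 - (r : ℕ)) =
      (j ^ (-k)) ^ d * (g (γ • z) ^ d + ∑ r : Fin d, e r (γ • z) * g (γ • z) ^ (d - 1 - (r : ℕ))) := by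
    rw [mul_add, Finset.mul_sum, slash_SL_apply, mul_pow, mul_comm]
    congr 1
    refine Finset.sum_congr rfl fun r _ => ?_
    rw [he' r, mul_pow]
    have hr : d = (d - 1 - (r : ℕ)) + ((r : ℕ) + 1) := by have := r.2; omega
    have : (j ^ (-k)) ^ d = (j ^ (-k)) ^ (d - 1 - (r : ℕ)) * j ^ (-((((r : ℕ) + 1 : ℕ) : ℤ) * k)) := by
      conv_lhs => rw [hr, pow_add]
      congr 1
      rw [← zpow_natCast, ← zpow_mul]
      congr 1
      ring
    rw [this]
    ring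
  rw [key, h1, mul_zero]


/-- (P5) cusp forms on `Γ₀(N)` are stable under `Aut(ℂ)` acting on `q`-expansions. -/
theorem exists_conj (N : ℕ) [NeZero N] (k : ℤ) (σ : ℂ ≃+* ℂ) (f : CuspForm (Gamma0 N) k) :
    ∃ g : CuspForm (Gamma0 N) k,
      ∀ n, (qExpansion 1 g).coeff n = σ ((qExpansion 1 f).coeff n) := by
  obtain ⟨w, D, d₁, wt, c, u, hD, hD0, hc, hu, hui, hlin⟩ := exists_linear_presentation N k f
  obtain ⟨d, e, he, he0, hmon⟩ := exists_monic_relation N k f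
  have nf : Nice f := nice_cuspForm f
  obtain ⟨D', hD', qD'⟩ := levelOne_exists_conj σ hD
  choose c' hc' qc' using fun s => levelOne_exists_conj σ (hc s)
  choose e' he' qe' using fun r => levelOne_exists_conj σ (he r)
  set φ : PowerSeries ℂ := (qExpansion 1 f).map (σ : ℂ →+* ℂ) with hφ
  set C' : ℍ → ℂ := ∑ s, c' s * u s with hC'
  have nD := hD.nice_SL
  have nD' := hD'.nice_SL
  have hC'mf : IsMF (G0 N) (w + k) C' :=
    IsMF.sum _ fun s _ => (((hc' s).mono (G0_le_SL N)).mul (hu s)).cast (by ring)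
  have nC' : Nice C' := hC'mf.nice_G0
  have qC' : qExpansion 1 C' = qExpansion 1 D' * φ := by
    rw [hC', Nice.qx_sum _ (fun s _ => (hc' s).nice_SL.mul (hu s).nice_G0)]
    have : ∀ s, qExpansion 1 (c' s * u s) =
        (qExpansion 1 (c s * u s)).map (σ : ℂ →+* ℂ) := by
      intro s
      rw [(hc' s).nice_SL.qx_mul (hu s).nice_G0, (hc s).nice_SL.qx_mul (hu s).nice_G0, map_mul,
        qc' s, (hui s).map_eq σ]
    simp_rw [this]
    rw [← map_sum, ← Nice.qx_sum _ (fun s _ => (hc s).nice_SL.mul (hu s).nice_G0), ← hlin,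
      nD.qx_mul nf, map_mul, qD']
  have hD'0 : D' ≠ 0 := by
    intro h0
    apply hD0
    rw [← nD.qx_eq_zero_iff]
    have : (qExpansion 1 D).map (σ : ℂ →+* ℂ) = 0 := by rw [← qD', h0, qExpansion_zero]
    ext n
    have h2 := congrArg (PowerSeries.coeff n) this
    simpa using h2
  -- the transported relation
  have hφrel : φ ^ d + ∑ r : Fin d, qExpansion 1 (e' r) * φ ^ (d - 1 - (r : ℕ)) = 0 := by
    have h1 := congrArg (fun F => (qExpansion 1 F).map (σ : ℂ →+* ℂ)) hmon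
    rw [(nf.pow d).qx_add (Nice.sum _ fun r _ => (he r).nice_SL.mul (nf.pow _)), nf.qx_pow,
      Nice.qx_sum _ (fun r _ => (he r).nice_SL.mul (nf.pow _)), qExpansion_zero, map_add,
      map_pow, map_sum, map_zero] at h1
    rw [← h1]
    congr 1
    refine Finset.sum_congr rfl fun r _ => ?_
    rw [(he r).nice_SL.qx_mul (nf.pow _), nf.qx_pow, map_mul, map_pow, qe' r]
  have hrel : C' ^ d + ∑ r : Fin d, e' r * C' ^ (d - 1 - (r : ℕ)) * D' ^ ((r : ℕ) + 1) = 0 := by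
    have nterm : ∀ r : Fin d, Nice (e' r * C' ^ (d - 1 - (r : ℕ)) * D' ^ ((r : ℕ) + 1)) :=
      fun r => ((he' r).nice_SL.mul (nC'.pow _)).mul (nD'.pow _)
    apply ((nC'.pow d).add (Nice.sum _ fun r _ => nterm r)).eq_of_qx_eq Nice.zero
    rw [(nC'.pow d).qx_add (Nice.sum _ fun r _ => nterm r), nC'.qx_pow,
      Nice.qx_sum _ (fun r _ => nterm r), qExpansion_zero, qC']
    have : (qExpansion 1 D' * φ) ^ d + ∑ r : Fin d,
        qExpansion 1 (e' r * C' ^ (d - 1 - (r : ℕ)) * D' ^ ((r : ℕ) + 1)) =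
        qExpansion 1 D' ^ d * (φ ^ d + ∑ r : Fin d, qExpansion 1 (e' r) * φ ^ (d - 1 - (r : ℕ))) := by
      rw [mul_add, Finset.mul_sum, mul_pow]
      congr 1
      refine Finset.sum_congr rfl fun r _ => ?_
      rw [((he' r).nice_SL.mul (nC'.pow _)).qx_mul (nD'.pow _),
        (he' r).nice_SL.qx_mul (nC'.pow _), nC'.qx_pow, nD'.qx_pow, qC', mul_pow]
      rw [pow_split (qExpansion 1 D') r]
      ring
    rw [this, hφrel, mul_zero]
  obtain ⟨g, hg, hgD⟩ := exists_holo_quotient nC'.holo nD'.holo hD'0 e'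
    (fun r => (he' r).nice_SL.holo) hrel
  -- monic relation for `g`
  have hgrel : g ^ d + ∑ r : Fin d, e' r * g ^ (d - 1 - (r : ℕ)) = 0 := by
    have h1 : D' ^ d * (g ^ d + ∑ r : Fin d, e' r * g ^ (d - 1 - (r : ℕ))) = 0 := by
      rw [← hrel, ← hgD, mul_add, Finset.mul_sum, mul_pow, mul_comm]
      congr 1
      refine Finset.sum_congr rfl fun r _ => ?_
      rw [pow_split D' r, mul_pow]
      ring
    have hmd : MDiff (g ^ d + ∑ r : Fin d, e' r * g ^ (d - 1 - (r : ℕ))) := by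
      refine (hg.pow d).add (MDifferentiable.sum fun r _ => (he' r).nice_SL.holo.mul (hg.pow _))
    rcases (UpperHalfPlane.mul_eq_zero_iff (nD'.holo.pow d) hmd).mp h1 with h2 | h2
    · exact absurd (funext fun z => eq_zero_of_pow_eq_zero (congrFun h2 z)) hD'0
    · exact h2
  -- invariance under `Γ₀(N)`
  have hginv : ∀ γ ∈ G0 N, g ∣[k] γ = g := by
    intro γ hγ
    obtain ⟨γ', hγ', rfl⟩ := hγ
    have h1 : (g ∣[k] γ') * D' = g * D' := by
      have h2 : (g * D') ∣[k + w] γ' = (g ∣[k] γ') * (D' ∣[w] γ') := mul_slash_SL2 k w γ' g D'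
      rw [slash_SL_of_isMF hD' γ', hgD] at h2
      rw [← h2, hgD]
      obtain ⟨a, ha⟩ := hC'mf
      rw [← ha, add_comm k w]
      exact a.slash_action_eq' _ ⟨γ', hγ', rfl⟩
    have h3 : (g ∣[k] γ' - g) * D' = 0 := by rw [sub_mul, h1, sub_self]
    rcases (UpperHalfPlane.mul_eq_zero_iff ((hg.slash k _).sub hg) nD'.holo).mp h3 with h4 | h4
    · exact sub_eq_zero.mp h4
    · exact absurd h4 hD'0
  have he'0 : ∀ r, IsZeroAtImInfty (e' r) := by
    intro r
    rw [(he' r).nice_SL.isZeroAtImInfty_iff, qe' r, PowerSeries.coeff_map,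
      ((he r).nice_SL.isZeroAtImInfty_iff).mp (he0 r), map_zero]
  let g₀ : CuspForm (Gamma0 N) k :=
    { toFun := g
      slash_action_eq' := hginv
      holo' := hg
      zero_at_cusps' := by
        intro c hc
        rw [Subgroup.IsArithmetic.isCusp_iff_isCusp_SL2Z] at hc
        rw [OnePoint.isZeroAt_iff_forall_SL2Z hc]
        intro γ _
        exact tendsto_zero_of_monic_relation he'0 (monic_relation_slash he' hgrel γ) }
  refine ⟨g₀, fun n => ?_⟩
  have ng : Nice g := nice_cuspForm g₀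
  have h1 : qExpansion 1 g * qExpansion 1 D' = φ * qExpansion 1 D' := by
    rw [← ng.qx_mul nD', hgD, qC', mul_comm]
  have h2 : qExpansion 1 D' ≠ 0 := fun h => hD'0 (nD'.qx_eq_zero_iff.mp h)
  have h3 : qExpansion 1 g = φ := mul_right_cancel₀ h2 h1
  change (qExpansion 1 g).coeff n = _
  rw [h3, hφ, PowerSeries.coeff_map]
  rfl

end Fermat.Agent.S23
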