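import Mathlib
import Fermat.Prelude.Def_CuspForm_IntegralStructure
import Fermat.Prelude.Thm_ModularForm_sturm_bound_Gamma0
import Fermat.Agent.S23.Basic
import Fermat.Agent.S23.Descent
import Fermat.Agent.S23.Transport
import Fermat.Agent.S23.Denoms

set_option autoImplicit false

open UpperHalfPlane ModularForm CongruenceSubgroup
open scoped MatrixGroups Manifold

namespace Fermat.Agent.S23

/-- the `q`-expansion coefficient map, as a linear map. -/
noncomputable def coeffMap (N : ℕ) [NeZero N] (k : ℤ) :
    CuspForm (Gamma0 N) k →ₗ[ℂ] (ℕ → ℂ) where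
  toFun f n := (qExpansion 1 f).coeff n
  map_add' f g := by
    funext n
    simp only [CuspForm.coe_add, Pi.add_apply]
    rw [(nice_cuspForm f).qx_add (nice_cuspForm g), map_add]
  map_smul' c f := by
    funext n
    have h1 : (⇑(c • f) : ℍ → ℂ) = c • ⇑f := by
      ext z; simp
    simp only [h1, Pi.smul_apply, RingHom.id_apply]
    rw [(nice_cuspForm f).qx_smul c]
    simp

lemma coeffMap_apply (N : ℕ) [NeZero N] (k : ℤ) (f : CuspForm (Gamma0 N) k) (n : ℕ) :
    coeffMap N k f n = (qExpansion 1 f).coeff n := rfl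

lemma coeffMap_injective (N : ℕ) [NeZero N] (k : ℤ) : Function.Injective (coeffMap N k) := by
  intro f g h
  apply DFunLike.coe_injective
  apply (nice_cuspForm f).eq_of_qx_eq (nice_cuspForm g)
  ext n
  exact congrFun h n

theorem finiteDimensional_cuspForm (N : ℕ) [NeZero N] (k : ℤ) :
    FiniteDimensional ℂ (CuspForm (Gamma0 N) k) := by
  classical
  set B : ℕ := (k * (Gamma0 N).index).toNat / 12 with hB
  let T : CuspForm (Gamma0 N) k →ₗ[ℂ] (Fin (B + 1) → ℂ) :=
    (LinearMap.funLeft ℂ ℂ (fun i : Fin (B + 1) => (i : ℕ))).comp (coeffMap N k)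
  have hT : Function.Injective T := by
    refine (injective_iff_map_eq_zero _).mpr fun f hf => ?_
    have hmf : (ModularFormClass.modularForm f : ModularForm (Gamma0 N) k) = 0 := by
      refine ModularForm.sturm_bound_Gamma0 N _ fun n hn => ?_
      have := congrFun hf ⟨n, Nat.lt_succ_of_le hn⟩
      simpa [T, coeffMap, LinearMap.funLeft] using this
    have hcoe : (⇑f : ℍ → ℂ) = 0 := by
      have := congrArg (fun F : ModularForm (Gamma0 N) k => (⇑F : ℍ → ℂ)) hmf
      simpa using this
    exact DFunLike.coe_injective (hcoe.trans CuspForm.coe_zero.symm)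
  exact FiniteDimensional.of_injective T hT

/-- integral structure in every weight. -/
theorem hasIntegralStructure (N : ℕ) [NeZero N] (k : ℤ) : CuspForm.HasIntegralStructure N k := by
  haveI := finiteDimensional_cuspForm N k
  have hspan := span_rational_of_conj_stable (coeffMap N k) (coeffMap_injective N k)
    (fun σ v => exists_conj N k σ v)
  unfold CuspForm.HasIntegralStructure
  rw [eq_top_iff, ← hspan, Submodule.span_le]
  intro v hv
  obtain ⟨M, hM, hint⟩ := exists_int_multiple N k v hv
  have hM0 : (M : ℂ) ≠ 0 := by exact_mod_cast hM.ne'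
  have hmem : ((M : ℂ) • v) ∈ CuspForm.intLattice N k := by
    apply Submodule.subset_span
    intro n
    obtain ⟨m, hm⟩ := hint n
    refine ⟨m, ?_⟩
    have := congrFun ((coeffMap N k).map_smul (M : ℂ) v) n
    simp only [coeffMap_apply, Pi.smul_apply, smul_eq_mul] at this
    rw [ModularFormClass.qCoeff, this, hm]
  have hv' : v = (M : ℂ)⁻¹ • ((M : ℂ) • v) := by
    rw [smul_smul, inv_mul_cancel₀ hM0, one_smul]
  rw [hv']
  exact Submodule.smul_mem _ _ (Submodule.subset_span hmem)

end Fermat.Agent.S23
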