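import Fermat.Agent.S23.LevelOneInt

set_option autoImplicit false

namespace Fermat.Agent.S23

open PowerSeries

theorem map_intCast_injective :
    Function.Injective (PowerSeries.map (Int.castRingHom ℂ)) :=
  PowerSeries.map_injective _ (Int.cast_injective)

/-- `ℤ⟦q⟧` is integrally closed inside `ℂ⟦q⟧` among quotients of integral series. -/
theorem mem_intSeries_of_isIntegralElem {x A B : PowerSeries ℂ} (hA : A ∈ intSeries) (hA0 : A ≠ 0)
    (hB : B ∈ intSeries) (hAB : A * x = B)
    (hx : (PowerSeries.map (Int.castRingHom ℂ)).IsIntegralElem x) : x ∈ intSeries := by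
  obtain ⟨A', rfl⟩ := hA
  obtain ⟨B', rfl⟩ := hB
  let _ : Algebra (PowerSeries ℤ) (PowerSeries ℂ) := (PowerSeries.map (Int.castRingHom ℂ)).toAlgebra
  have hx' : IsIntegral (PowerSeries ℤ) x := hx
  have hinjS : Function.Injective (algebraMap (PowerSeries ℂ) (FractionRing (PowerSeries ℂ))) :=
    IsFractionRing.injective _ _
  have hinj : Function.Injective
      (Algebra.ofId (PowerSeries ℤ) (FractionRing (PowerSeries ℂ))) :=
    fun a b hab => map_intCast_injective (hinjS (by
      have h1 := IsScalarTower.algebraMap_apply (PowerSeries ℤ) (PowerSeries ℂ)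
        (FractionRing (PowerSeries ℂ)) a
      have h2 := IsScalarTower.algebraMap_apply (PowerSeries ℤ) (PowerSeries ℂ)
        (FractionRing (PowerSeries ℂ)) b
      have hab' : algebraMap (PowerSeries ℤ) (FractionRing (PowerSeries ℂ)) a
          = algebraMap (PowerSeries ℤ) (FractionRing (PowerSeries ℂ)) b := hab
      rw [h1, h2] at hab'
      exact hab'))
  let f : FractionRing (PowerSeries ℤ) →ₐ[PowerSeries ℤ] FractionRing (PowerSeries ℂ) :=
    IsFractionRing.liftAlgHom hinj
  have hf : ∀ z : PowerSeries ℤ, f (algebraMap _ _ z)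
      = algebraMap (PowerSeries ℂ) (FractionRing (PowerSeries ℂ))
          (PowerSeries.map (Int.castRingHom ℂ) z) := fun z => by
    rw [AlgHom.commutes, IsScalarTower.algebraMap_apply (PowerSeries ℤ) (PowerSeries ℂ)
        (FractionRing (PowerSeries ℂ))]
    rfl
  have hA'0 : algebraMap (PowerSeries ℂ) (FractionRing (PowerSeries ℂ))
      (PowerSeries.map (Int.castRingHom ℂ) A') ≠ 0 := by
    intro h
    exact hA0 (hinjS (by rw [h, map_zero]))
  set y : FractionRing (PowerSeries ℤ) :=
    algebraMap _ _ B' / algebraMap _ _ A' with hy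
  have hfy : f y = algebraMap (PowerSeries ℂ) (FractionRing (PowerSeries ℂ)) x := by
    rw [hy, map_div₀, hf, hf, ← hAB, map_mul, mul_div_cancel_left₀ _ hA'0]
  have hyint : IsIntegral (PowerSeries ℤ) y := by
    rw [← isIntegral_algHom_iff f f.toRingHom.injective, hfy]
    exact hx'.algebraMap
  obtain ⟨z, hz⟩ := IsIntegrallyClosed.isIntegral_iff.1 hyint
  refine ⟨z, hinjS ?_⟩
  rw [← hf, hz, hfy]

/-- explicit version with a monic relation -/
theorem mem_intSeries_of_monic_relation {x A B : PowerSeries ℂ} (hA : A ∈ intSeries) (hA0 : A ≠ 0)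
    (hB : B ∈ intSeries) (hAB : A * x = B) (d : ℕ) (c : Fin d → PowerSeries ℂ)
    (hc : ∀ i, c i ∈ intSeries) (hrel : x ^ d + ∑ i : Fin d, c i * x ^ (i : ℕ) = 0) :
    x ∈ intSeries := by
  refine mem_intSeries_of_isIntegralElem hA hA0 hB hAB ?_
  choose c' hc' using hc
  refine ⟨Polynomial.X ^ d + ∑ i : Fin d, Polynomial.C (c' i) * Polynomial.X ^ (i : ℕ), ?_, ?_⟩
  · apply Polynomial.monic_X_pow_add
    refine lt_of_le_of_lt (Polynomial.degree_sum_le _ _) ?_
    rw [Finset.sup_lt_iff (by exact WithBot.bot_lt_coe d)]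
    intro i _
    exact lt_of_le_of_lt (Polynomial.degree_C_mul_X_pow_le _ _) (by exact_mod_cast i.2)
  · simp only [Polynomial.eval₂_add, Polynomial.eval₂_pow, Polynomial.eval₂_X,
      Polynomial.eval₂_finsetSum, Polynomial.eval₂_mul, Polynomial.eval₂_C, hc']
    exact hrel

end Fermat.Agent.S23
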