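import Fermat.Agent.S23.LevelOneInt

set_option autoImplicit false

open UpperHalfPlane ModularForm ModularFormClass EisensteinSeries MatrixGroups CongruenceSubgroup

namespace Fermat.Agent.S23

/-- level one forms with integer `q`-coefficients -/
def intForms (w : ℤ) : Set (ModularForm 𝒮ℒ w) := {g | qExpansion 1 g ∈ intSeries}

/-- multiplication by the discriminant as a linear map on level one forms -/
noncomputable def mulDisc (w : ℤ) : ModularForm 𝒮ℒ (w - 12) →ₗ[ℂ] ModularForm 𝒮ℒ w :=
  CuspForm.toModularFormₗ.comp (CuspForm.discriminantEquiv (k := w)).symm.toLinearMap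

theorem mulDisc_coe (w : ℤ) (x : ModularForm 𝒮ℒ (w - 12)) :
    (mulDisc w x : ℍ → ℂ) = (CuspForm.discriminant : ℍ → ℂ) * (x : ℍ → ℂ) := by
  ext z
  rfl

theorem qExpansion_mulDisc (w : ℤ) (x : ModularForm 𝒮ℒ (w - 12)) :
    qExpansion 1 (mulDisc w x) = qExpansion 1 ModularForm.discriminant * qExpansion 1 x := by
  rw [mulDisc_coe, ← CuspForm.coe_discriminant]
  exact ModularForm.qExpansion_mul_coe one_pos one_mem_strictPeriods_SL _ _

theorem mulDisc_mem_span (w : ℤ) {x : ModularForm 𝒮ℒ (w - 12)}
    (hx : x ∈ Submodule.span ℂ (intForms (w - 12))) :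
    mulDisc w x ∈ Submodule.span ℂ (intForms w) := by
  have h : Submodule.map (mulDisc w) (Submodule.span ℂ (intForms (w - 12)))
      ≤ Submodule.span ℂ (intForms w) := by
    rw [Submodule.map_span_le]
    intro m hm
    have h1 : (1728 : ℂ) • mulDisc w m ∈ intForms w := by
      show qExpansion 1 (((1728 : ℂ) • mulDisc w m : ModularForm 𝒮ℒ w) : ℍ → ℂ) ∈ intSeries
      rw [FunLike.coe_smul, ModularForm.qExpansion_smul one_pos one_mem_strictPeriods_SL,
        qExpansion_mulDisc, ← smul_mul_assoc]
      exact mul_mem smul_discriminant_mem_intSeries hm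
    have h2 : mulDisc w m = (1728 : ℂ)⁻¹ • ((1728 : ℂ) • mulDisc w m) := by
      rw [smul_smul, inv_mul_cancel₀ (by norm_num), one_smul]
    rw [h2]
    exact Submodule.smul_mem _ _ (Submodule.subset_span h1)
  exact h ⟨x, hx, rfl⟩

theorem mem_span_intForms_aux : ∀ (n : ℕ) (w : ℤ), w < 12 * n → ∀ h : ModularForm 𝒮ℒ w,
    h ∈ Submodule.span ℂ (intForms w) := by
  intro n
  induction n with
  | zero =>
    intro w hw h
    have h0 : h = 0 := by
      ext z
      have := levelOne_neg_weight_eq_zero (by simpa using hw) h
      simp [this]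
    rw [h0]; exact Submodule.zero_mem _
  | succ n ih =>
    intro w hw h
    rcases lt_trichotomy w 0 with hneg | rfl | hpos
    · have h0 : h = 0 := by
        ext z
        have := levelOne_neg_weight_eq_zero hneg h
        simp [this]
      rw [h0]; exact Submodule.zero_mem _
    · obtain ⟨c, hc⟩ := levelOne_weight_zero_const h
      have h1 : h = c • (1 : ModularForm 𝒮ℒ 0) := by
        ext z
        simp [hc]
      rw [h1]
      refine Submodule.smul_mem _ _ (Submodule.subset_span ?_)
      show qExpansion 1 ((1 : ModularForm 𝒮ℒ 0) : ℍ → ℂ) ∈ intSeries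
      rw [ModularForm.qExpansion_one]
      exact one_mem _
    · obtain ⟨k, rfl⟩ : ∃ k : ℕ, w = k := ⟨w.toNat, (Int.toNat_of_nonneg hpos.le).symm⟩
      rcases Nat.even_or_odd k with hev | hodd
      · rcases Nat.lt_or_ge k 3 with hk3 | hk3
        · have hk2 : k = 2 := by
            obtain ⟨r, hr⟩ := hev
            have : 0 < k := by exact_mod_cast hpos
            omega
          subst hk2
          have h0 : h = 0 := rank_zero_iff_forall_zero.mp levelOne_weight_two_rank_zero h
          rw [h0]; exact Submodule.zero_mem _
        · set a0 : ℂ := (qExpansion 1 h).coeff 0 with ha0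
          have hg : (qExpansion 1 (h - a0 • E hk3 : ModularForm 𝒮ℒ k)).coeff 0 = 0 := by
            rw [FunLike.coe_sub, ModularForm.qExpansion_sub one_pos one_mem_strictPeriods_SL,
              FunLike.coe_smul, ModularForm.qExpansion_smul one_pos one_mem_strictPeriods_SL,
              map_sub, PowerSeries.coeff_smul, E_qExpansion_coeff_zero hk3 hev, smul_eq_mul,
              mul_one, sub_self]
          have hdec : h = a0 • E hk3 +
              mulDisc k (CuspForm.discriminantEquiv (toCuspForm (h - a0 • E hk3) hg)) := by
            ext z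
            have h1 : mulDisc k (CuspForm.discriminantEquiv (toCuspForm (h - a0 • E hk3) hg)) z
                = (h - a0 • E hk3) z := by
              unfold mulDisc
              simp [CuspForm.toModularFormₗ_apply]
            rw [add_apply, h1]
            simp
          rw [hdec]
          refine Submodule.add_mem _ ?_ (mulDisc_mem_span k (ih _ (by push_cast at hw ⊢; omega) _))
          obtain ⟨M, hM0, hM⟩ := exists_smul_E_mem_intSeries hk3 hev
          have h2 : a0 • E hk3 = (a0 * (M : ℂ)⁻¹) • ((M : ℂ) • E hk3) := by
            rw [smul_smul, mul_assoc, inv_mul_cancel₀ (by exact_mod_cast hM0), mul_one]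
          rw [h2]
          refine Submodule.smul_mem _ _ (Submodule.subset_span ?_)
          show qExpansion 1 (((M : ℂ) • E hk3 : ModularForm 𝒮ℒ k) : ℍ → ℂ) ∈ intSeries
          rw [FunLike.coe_smul, ModularForm.qExpansion_smul one_pos one_mem_strictPeriods_SL]
          exact hM
      · have h0 : h = 0 := levelOne_odd_weight_eq_zero (by exact_mod_cast hodd) h
        rw [h0]; exact Submodule.zero_mem _

theorem span_intForms (w : ℤ) : Submodule.span ℂ (intForms w) = ⊤ := by
  rw [eq_top_iff]
  intro h _
  refine mem_span_intForms_aux (w.toNat + 1) w ?_ h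
  have := Int.self_le_toNat w
  push_cast
  omega

end Fermat.Agent.S23
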